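/-
S55 (Poitou-Tate), block K = (FC): `|Ш²_S(k,μ_p)| ≤ |Ш¹_S(k,μ_p)| < ∞` for `k ∋ μ_p`.  DEFINITIONS.

Set-up of the whole block:
* `N` a number field embedded in `Qbar` (`[Algebra N Qbar]`), `V = Vof N = Gal(Qbar/N) ≤ GQ`
  (`PT/Hens/Place.lean`), `V` is `(LS S)`-open and `V ≤ G1 p` (i.e. `μ_p ⊆ N`);
* `K : KummerSetup Lall p multRep (cycRep p) ι` (abstract Kummer theory of `PT/B/*`, instance delivered by
  block B); `K.kum b : GQ → GQ → ZMod p` is the Kummer cocycle of `b : Additive Qbarˣ`;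
* `emb x : Additive Qbarˣ` the image of `x : Nˣ`;
* `SN N S` the places of `N` over `S`; `plc v` a chosen place of `Qbar` above `v : Pl N`;
* `ClModP N p (SN N S)`, `SigS`, `VS` from `PT/Arith/ClModP.lean`.
-/
import Fermat.Agent.PT.Global.Interface
import Fermat.Agent.PT.B.CycTheta
import Fermat.Agent.PT.Hens.Place
import Fermat.Agent.PT.Arith.ClModP

set_option autoImplicit false

open NumberField IsDedekindDomain Fermat.Agent.CFT Fermat.Agent.PT.Arith ExtCitation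

noncomputable section

namespace Fermat.Agent.PT.Koch

/-- (L-pair) CONTRACT with block L: a character `χ ≠ 0` of order `p` of a local field `k_𝒜 ∋ μ_p` is detected
by the cup product with `H¹(k_𝒜, μ_p) = k_𝒜^×/p` (equivalently: not every element of `k_𝒜^×` is a norm from
the cyclic extension cut out by `χ`). -/
def LocalPairingStatement (p : ℕ) [Fact p.Prime] : Prop :=
  ∀ V : Subgroup GQ, Lall.IsOpen V → V ≤ G1 p → ∀ 𝒜 : Place, 𝒜.IsFin →
    ∀ x ∈ Z1 Lall (V ⊓ Dec 𝒜) (trivZ p GQ),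
      (∀ f ∈ Z1 Lall (V ⊓ Dec 𝒜) (cycRep p), cupT f x ∈ B2 Lall (V ⊓ Dec 𝒜) (cycRep p)) →
      x ∈ B1 Lall (V ⊓ Dec 𝒜) (trivZ p GQ)

theorem isFin_of_overS {𝒜 : Place} {S : Finset Nat.Primes} (h : 𝒜.OverS S) : 𝒜.IsFin := by
  obtain ⟨q, -, hq⟩ := h
  exact ⟨q, hq⟩

section N

variable (N : Type*) [Field N] [NumberField N] [Algebra N Qbar]

/-- the places of `N` over `S`. -/
def SN (S : Finset Nat.Primes) : Set (Pl N) := {v | ∃ q ∈ S, Over v (q : ℕ)}

variable {N}

/-- `Nˣ → Additive Qbarˣ`. -/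
def emb (b : Nˣ) : Additive Qbarˣ :=
  Additive.ofMul (Units.map (algebraMap N Qbar : N →* Qbar) b)

/-- a chosen place of `Qbar` above `v`. -/
def plc (v : Pl N) : Place := (exists_plOf_eq v).choose

theorem plc_isFin (v : Pl N) : (plc v).IsFin := (exists_plOf_eq v).choose_spec.choose

theorem plOf_plc (v : Pl N) : plOf N (plc v) (plc_isFin v) = v :=
  (exists_plOf_eq v).choose_spec.choose_spec

variable {p : ℕ} [Fact p.Prime] {ι : ZMod p →+ Additive Qbarˣ}
  (K : KummerSetup Lall p multRep (cycRep p) ι)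

/-- **Koch's relation.**  `z = dν` with `ν` a cochain of `G_N` (all levels) whose "ramification character"
`i ↦ ν 1 i - ν 1 1` on the inertia group at (the chosen place above) `v ∉ S` is the Kummer character of
an element `b ∈ Nˣ` with `ord_v b ≡ δ v mod p`. -/
def KRel (S : Finset Nat.Primes) (z : GQ → GQ → GQ → ZMod p) (δ : DivS N p (SN N S)) : Prop :=
  ∃ ν ∈ X1 Lall (Vof N) (cycRep p), d1 (k := ZMod p) ν = z ∧
    ∀ v : {v : Pl N // v ∉ SN N S}, ∃ b : Nˣ, ((ord v.1 (b : N) : ℤ) : ZMod p) = δ v ∧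
      ∀ i ∈ Ine (plc v.1), ν 1 i - ν 1 1 = K.kum (emb b) 1 i

/-- evaluation of a linear form on `H²` at a cocycle (junk value `0` outside `Z2`). -/
def ev (W : Subgroup GQ) (lam : H2 Lall W (cycRep p) →ₗ[ZMod p] ZMod p)
    (z : GQ → GQ → GQ → ZMod p) : ZMod p :=
  open Classical in
  if h : z ∈ Z2 Lall W (cycRep p) then lam (H2.mk Lall W (cycRep p) ⟨z, h⟩) else 0

/-- the local pairing `(x, z) ↦ λ (κ(z) ∪ χ_x)` on `Nˣ`. -/
def pair (W : Subgroup GQ) (lam : H2 Lall W (cycRep p) →ₗ[ZMod p] ZMod p) (x z : Nˣ) : ZMod p :=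
  ev W lam (cupT (K.kum (emb z)) (K.kum (emb x)))

end N

end Fermat.Agent.PT.Koch

end
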