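/-
S55 block K, leaf `KumApi`: the Kummer character `g ↦ K.kum b 1 g` on subgroups `W ≤ G1 p` (trivial action on
`μ_p`), elements of `N`.
-/
import Fermat.Agent.PT.Koch.Defs
import Fermat.Agent.PT.Coh.DictV
import Fermat.Agent.PT.B.Kummer

set_option autoImplicit false

open NumberField IsDedekindDomain Fermat.Agent.CFT Fermat.Agent.PT.Arith ExtCitation

noncomputable section

namespace Fermat.Agent.PT.Koch

variable {p : ℕ} [Fact p.Prime]

theorem cycRep_apply_of_mem_G1 {g : GQ} (hg : g ∈ G1 p) (a : ZMod p) : cycRep p g a = a := by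
  have h : cycloChar p g = 1 := hg
  rw [cycRep_apply, h, Units.val_one, one_mul]

section cyc_triv

variable {L : LevelSystem GQ} {W : Subgroup GQ}

theorem X0_cyc_eq_triv (hW : W ≤ G1 p) : X0 L W (cycRep p) = X0 L W (trivZ p GQ) := by
  ext f
  simp only [mem_X0, Equivariant0]
  refine and_congr_left fun _ => forall₂_congr fun v hv => forall_congr' fun g => ?_
  rw [cycRep_apply_of_mem_G1 (hW hv)]
  rfl

theorem X1_cyc_eq_triv (hW : W ≤ G1 p) : X1 L W (cycRep p) = X1 L W (trivZ p GQ) := by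
  ext f
  simp only [mem_X1, Equivariant1]
  refine and_congr_left fun _ => forall₂_congr fun v hv => forall₂_congr fun g₀ g₁ => ?_
  rw [cycRep_apply_of_mem_G1 (hW hv)]
  rfl

theorem Z1_cyc_eq_triv (hW : W ≤ G1 p) : Z1 L W (cycRep p) = Z1 L W (trivZ p GQ) := by
  rw [Z1, Z1, X1_cyc_eq_triv hW]

theorem B1_cyc_eq_triv (hW : W ≤ G1 p) : B1 L W (cycRep p) = B1 L W (trivZ p GQ) := by
  rw [B1, B1, X0_cyc_eq_triv hW]

/-- (`mem_B1_iff` of `Coh/DictV.lean`.) -/
theorem mem_B1_iff_of_le_G1 (hW : W ≤ G1 p) {f : GQ → GQ → ZMod p} (hf : f ∈ Z1 L W (cycRep p)) :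
    f ∈ B1 L W (cycRep p) ↔ ∀ w ∈ W, f 1 w = 0 := by
  rw [mem_B1_iff hf]
  constructor
  · rintro ⟨a, ha⟩ w hw
    rw [ha w hw, cycRep_apply_of_mem_G1 (hW hw), sub_self]
  · intro h
    exact ⟨0, fun w hw => by rw [h w hw, map_zero, sub_zero]⟩

/-- the character of a cocycle is additive. -/
theorem one_mul_of_le_G1 (hW : W ≤ G1 p) {f : GQ → GQ → ZMod p} (hf : f ∈ Z1 L W (cycRep p)) :
    ∀ w ∈ W, ∀ g : GQ, f 1 (w * g) = f 1 w + f 1 g := by
  intro w hw g
  rw [inh1_cocycle hf w hw g, cycRep_apply_of_mem_G1 (hW hw), add_comm]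

theorem one_one_eq_zero {f : GQ → GQ → ZMod p} (hf : f ∈ Z1 L W (cycRep p)) : f 1 1 = 0 := by
  have h1 := congrFun (congrFun (congrFun hf.2 1) 1) 1
  simpa only [d1_apply, Pi.zero_apply, sub_self, zero_add] using h1

end cyc_triv

section kum

variable {ι : ZMod p →+ Additive Qbarˣ} (K : KummerSetup Lall p multRep (cycRep p) ι)
variable {W : Subgroup GQ}
include K

/-- `G1 p` fixes the `p`-th roots of unity (`K.equiv`, `K.range`). -/
theorem apply_eq_of_mem_G1 {g : GQ} (hg : g ∈ G1 p) {μ : Qbar} (hμ : μ ^ p = 1) : g μ = μ := by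
  have hp : p ≠ 0 := (Fact.out : p.Prime).ne_zero
  have hμ0 : μ ≠ 0 := by
    rintro rfl
    rw [zero_pow hp] at hμ
    exact zero_ne_one hμ
  have h1 : p • Additive.ofMul (Units.mk0 μ hμ0) = 0 := by
    rw [← ofMul_pow, ← ofMul_one]
    congr 1
    ext
    simpa using hμ
  obtain ⟨t, ht⟩ := K.range _ h1
  have h2 := K.equiv g t
  rw [cycRep_apply_of_mem_G1 hg, ht, multRep_apply] at h2
  have h3 := congrArg (fun z : Additive Qbarˣ => ((Additive.toMul z : Qbarˣ) : Qbar)) h2
  simpa using h3.symm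

theorem kum_one_add (hW : W ≤ G1 p) {b b' : Additive Qbarˣ} (hb : ∀ w ∈ W, multRep w b = b)
    (hb' : ∀ w ∈ W, multRep w b' = b') :
    ∀ w ∈ W, K.kum (b + b') 1 w = K.kum b 1 w + K.kum b' 1 w := by
  intro w hw
  have h := K.kum_add hb hb'
  have h2 := (mem_B1_iff_of_le_G1 hW (B1_le_Z1 h)).1 h w hw
  simp only [Pi.sub_apply, Pi.add_apply] at h2
  exact sub_eq_zero.1 h2

theorem kum_one_neg (hW : W ≤ G1 p) {b : Additive Qbarˣ} (hb : ∀ w ∈ W, multRep w b = b) :
    ∀ w ∈ W, K.kum (-b) 1 w = - K.kum b 1 w := by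
  intro w hw
  have h := K.kum_neg hb
  have h2 := (mem_B1_iff_of_le_G1 hW (B1_le_Z1 h)).1 h w hw
  simp only [Pi.add_apply] at h2
  exact eq_neg_of_add_eq_zero_left h2

theorem kum_one_sub (hW : W ≤ G1 p) {b b' : Additive Qbarˣ} (hb : ∀ w ∈ W, multRep w b = b)
    (hb' : ∀ w ∈ W, multRep w b' = b') :
    ∀ w ∈ W, K.kum (b - b') 1 w = K.kum b 1 w - K.kum b' 1 w := by
  intro w hw
  have hb'' : ∀ w ∈ W, multRep w (-b') = -b' := fun w hw => by rw [map_neg, hb' w hw]
  rw [sub_eq_add_neg, kum_one_add K hW hb hb'' w hw, kum_one_neg K hW hb' w hw, sub_eq_add_neg]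

/-- the Kummer character vanishes at `g` iff `g` fixes one (any) `p`-th root
(`K.ι_kum_one`, `K.inj`, `apply_eq_of_mem_G1`). -/
theorem kum_one_eq_zero_iff {g : GQ} (hg : g ∈ G1 p) {b : Qbarˣ} (hb : g (b : Qbar) = b) {β : Qbar}
    (hβ : β ^ p = (b : Qbar)) : K.kum (Additive.ofMul b) 1 g = 0 ↔ g β = β := by
  have hp : p ≠ 0 := (Fact.out : p.Prime).ne_zero
  have hb' : multRep g (Additive.ofMul b) = Additive.ofMul b := by
    rw [multRep_apply]
    congr 1
    ext
    simpa using hb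
  have h1 := K.ι_kum_one hb'
  have h0 : K.kum (Additive.ofMul b) 1 g = 0 ↔
      multRep g (K.s (Additive.ofMul b)) = K.s (Additive.ofMul b) := by
    rw [← sub_eq_zero (a := multRep g _), ← h1]
    exact ⟨fun h => by rw [h, map_zero], fun h => K.inj (by rw [h, map_zero])⟩
  rw [h0]
  set γ : Qbarˣ := Additive.toMul (K.s (Additive.ofMul b)) with hγ
  have hγs : K.s (Additive.ofMul b) = Additive.ofMul γ := rfl
  have hγp : (γ : Qbar) ^ p = b := by
    have h2 := K.p_smul_s (Additive.ofMul b)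
    rw [hγs, ← ofMul_pow] at h2
    have h3 := congrArg (fun z : Additive Qbarˣ => ((Additive.toMul z : Qbarˣ) : Qbar)) h2
    simpa using h3
  have h4 : multRep g (Additive.ofMul γ) = Additive.ofMul γ ↔ g (γ : Qbar) = γ := by
    rw [multRep_apply]
    constructor
    · intro h
      have h3 := congrArg (fun z : Additive Qbarˣ => ((Additive.toMul z : Qbarˣ) : Qbar)) h
      simpa using h3
    · intro h
      congr 1
      ext
      simpa using h
  rw [hγs, h4]
  have hγ0 : (γ : Qbar) ≠ 0 := γ.ne_zero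
  have hμ : (β / γ) ^ p = 1 := by
    rw [div_pow, hβ, hγp, div_self b.ne_zero]
  have h5 := apply_eq_of_mem_G1 K hg hμ
  have h6 : β = (β / γ) * γ := by field_simp
  constructor
  · intro h
    rw [h6, map_mul, h5, h]
  · intro h
    have h7 : g β = (β / γ) * g γ := by
      conv_lhs => rw [h6, map_mul, h5]
    rw [h] at h7
    have hβ0 : β ≠ 0 := by
      rintro rfl
      rw [zero_pow hp] at hβ
      exact b.ne_zero hβ.symm
    have h8 : β / γ ≠ 0 := div_ne_zero hβ0 hγ0
    have h9 : (β / γ) * γ = (β / γ) * g γ := by rw [← h6]; exact h7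
    exact (mul_left_cancel₀ h8 h9).symm

theorem eq_kum_one_of_sub_mem_B1 (hW : W ≤ G1 p) {f : GQ → GQ → ZMod p} {b : Additive Qbarˣ}
    (h : f - K.kum b ∈ B1 Lall W (cycRep p)) : ∀ w ∈ W, f 1 w = K.kum b 1 w := by
  intro w hw
  have h2 := (mem_B1_iff_of_le_G1 hW (B1_le_Z1 h)).1 h w hw
  simp only [Pi.sub_apply] at h2
  exact sub_eq_zero.1 h2

/-- two Kummer cocycles are cohomologous iff the elements differ by a `p`-th power of the fixed field. -/
theorem kum_sub_mem_B1_of_eq_add_smul (hW : W ≤ G1 p) {b b' c : Additive Qbarˣ}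
    (hb : ∀ w ∈ W, multRep w b = b) (hc : ∀ w ∈ W, multRep w c = c) (h : b' = b + p • c) :
    K.kum b' - K.kum b ∈ B1 Lall W (cycRep p) := by
  subst h
  have hpc : ∀ w ∈ W, multRep w (p • c) = p • c := fun w hw => by rw [map_nsmul, hc w hw]
  have h1 := K.kum_add hb hpc
  have h2 : K.kum (p • c) ∈ B1 Lall W (cycRep p) := (K.kum_mem_B1_iff hpc).2 ⟨c, hc, rfl⟩
  have h3 := add_mem h1 h2
  have h4 : K.kum (b + p • c) - (K.kum b + K.kum (p • c)) + K.kum (p • c)
      = K.kum (b + p • c) - K.kum b := by abel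
  rwa [h4] at h3

end kum

section N

variable {N : Type*} [Field N] [NumberField N] [Algebra N Qbar]

omit [NumberField N] in
theorem emb_mul (a b : Nˣ) : emb (a * b) = emb a + emb b := by
  unfold emb
  rw [map_mul, ofMul_mul]

omit [NumberField N] in
theorem emb_inv (a : Nˣ) : emb a⁻¹ = - emb a := by
  unfold emb
  rw [map_inv, ofMul_inv]

omit [NumberField N] in
theorem emb_div (a b : Nˣ) : emb (a / b) = emb a - emb b := by
  unfold emb
  rw [map_div, ofMul_div]

omit [NumberField N] in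
theorem emb_one : emb (1 : Nˣ) = 0 := by
  unfold emb
  rw [map_one, ofMul_one]

omit [NumberField N] in
theorem emb_pow (a : Nˣ) (n : ℕ) : emb (a ^ n) = n • emb a := by
  unfold emb
  rw [map_pow, ofMul_pow]

omit [NumberField N] in
theorem emb_injective : Function.Injective (emb : Nˣ → Additive Qbarˣ) := by
  intro a b h
  have h1 : ((Additive.toMul (emb a) : Qbarˣ) : Qbar) = ((Additive.toMul (emb b) : Qbarˣ) : Qbar) := by
    rw [h]
  exact Units.ext ((algebraMap N Qbar).injective h1)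

omit [NumberField N] in
theorem coe_toMul_emb (a : Nˣ) : ((Additive.toMul (emb a) : Qbarˣ) : Qbar) = algebraMap N Qbar a := rfl

omit [NumberField N] in
theorem multRep_emb {g : GQ} (hg : g ∈ Vof N) (b : Nˣ) : multRep g (emb b) = emb b := by
  unfold emb
  rw [multRep_apply]
  congr 1
  ext
  exact hg (b : N)

/-- translation of `multRep g b = b`. -/
theorem multRep_eq_iff (g : GQ) (b : Qbarˣ) :
    multRep g (Additive.ofMul b) = Additive.ofMul b ↔ g (b : Qbar) = b := by
  rw [multRep_apply]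
  constructor
  · intro h
    exact congrArg (fun u : Qbarˣ => (u : Qbar)) (Additive.ofMul.injective h)
  · intro h
    congr 1
    ext
    exact h

/-- Galois correspondence: the fixed field of `Vof N` is `N`
(`InfiniteGalois.fixedField_fixingSubgroup` for the intermediate field `(algebraMap N Qbar).fieldRange`). -/
theorem exists_algebraMap_eq {x : Qbar} (hx : ∀ g ∈ Vof N, g x = x) : ∃ y : N, algebraMap N Qbar y = x := by
  set F : IntermediateField ℚ Qbar := (IsScalarTower.toAlgHom ℚ N Qbar).fieldRange with hF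
  have hmemF : ∀ z : Qbar, z ∈ F ↔ ∃ y : N, algebraMap N Qbar y = z := by
    intro z
    rw [hF, AlgHom.mem_fieldRange]
    rfl
  have hV : F.fixingSubgroup = Vof N := by
    ext g
    rw [IntermediateField.mem_fixingSubgroup_iff, mem_Vof]
    constructor
    · intro h y
      exact h _ ((hmemF _).2 ⟨y, rfl⟩)
    · intro h z hz
      obtain ⟨y, rfl⟩ := (hmemF z).1 hz
      exact h y
  have h1 : x ∈ IntermediateField.fixedField F.fixingSubgroup := by
    rw [IntermediateField.mem_fixedField_iff]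
    intro g hg
    exact hx g (hV ▸ hg)
  rw [InfiniteGalois.fixedField_fixingSubgroup] at h1
  exact (hmemF x).1 h1

theorem exists_emb_eq {b : Additive Qbarˣ} (hb : ∀ g ∈ Vof N, multRep g b = b) :
    ∃ x : Nˣ, emb x = b := by
  obtain ⟨y, hy⟩ := exists_algebraMap_eq (N := N) (x := ((Additive.toMul b : Qbarˣ) : Qbar))
    (fun g hg => (multRep_eq_iff g (Additive.toMul b)).1 (hb g hg))
  have hy0 : y ≠ 0 := by
    rintro rfl
    rw [map_zero] at hy
    exact (Additive.toMul b : Qbarˣ).ne_zero hy.symm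
  refine ⟨Units.mk0 y hy0, ?_⟩
  apply Additive.toMul.injective
  ext
  rw [coe_toMul_emb]
  exact hy

/-- `μ_p ⊆ N`. -/
theorem exists_zeta {ι : ZMod p →+ Additive Qbarˣ} (K : KummerSetup Lall p multRep (cycRep p) ι)
    (hV1 : Vof N ≤ G1 p) : ∃ ζ : N, IsPrimitiveRoot ζ p := by
  have hp : p.Prime := Fact.out
  set μ : Qbarˣ := Additive.toMul (ι 1) with hμ
  have hμp : μ ^ p = 1 := by
    have h1 := K.p_smul_ι (1 : ZMod p)
    have h2 := congrArg Additive.toMul h1
    rwa [toMul_nsmul, toMul_zero] at h2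
  have hμ1 : μ ≠ 1 := by
    intro h
    have h1 : ι 1 = ι 0 := by
      rw [map_zero]
      exact Additive.toMul.injective (by rw [toMul_zero]; exact h)
    exact one_ne_zero (K.inj h1)
  have hprim : IsPrimitiveRoot (μ : Qbar) p := by
    have h1 : orderOf μ = p := orderOf_eq_prime hμp hμ1
    have h2 : IsPrimitiveRoot μ p := h1 ▸ IsPrimitiveRoot.orderOf μ
    exact IsPrimitiveRoot.coe_units_iff.2 h2
  have hμp' : (μ : Qbar) ^ p = 1 := hprim.pow_eq_one
  obtain ⟨ζ, hζ⟩ := exists_algebraMap_eq (N := N) (x := (μ : Qbar))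
    (fun g hg => apply_eq_of_mem_G1 K (hV1 hg) hμp')
  refine ⟨ζ, IsPrimitiveRoot.of_map_of_injective (f := algebraMap N Qbar) ?_
    (algebraMap N Qbar).injective⟩
  rw [hζ]
  exact hprim

end N

end Fermat.Agent.PT.Koch

end
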