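/-
S55 block K, leaf `Levels`: `(LS S)`-open subgroups of `GQ` = `Lall`-open subgroups containing all inertia groups
outside `S`; open subgroups are `Vof` of number fields; conjugation of `Dec`, `Ine`.
-/
import Fermat.Agent.PT.Koch.Defs
import Fermat.Agent.PT.Bridge.GalLevels

set_option autoImplicit false

open NumberField IsDedekindDomain Fermat.Agent.CFT ExtCitation
open scoped Pointwise

noncomputable section

namespace Fermat.Agent.PT.Koch

/-- An `Lall`-open subgroup is the fixing subgroup of a finite extension of `ℚ`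
(open ⇒ closed ⇒ `InfiniteGalois.fixingSubgroup_fixedField`; pattern: `exists_level_of_smooth` in
`PT/Bridge/Levels.lean`). -/
theorem exists_field_of_isOpen {V : Subgroup GQ} (hV : Lall.IsOpen V) :
    ∃ F : IntermediateField ℚ Qbar, FiniteDimensional ℚ F ∧ F.fixingSubgroup = V := by
  obtain ⟨U, ⟨-, F1, hF1, rfl⟩, hle⟩ := hV
  have hopen : IsOpen (V : Set GQ) :=
    Subgroup.isOpen_mono hle (IntermediateField.fixingSubgroup_isOpen F1)
  have hclosed : IsClosed (V : Set GQ) := Subgroup.isClosed_of_isOpen _ hopen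
  have hfix : (IntermediateField.fixedField V).fixingSubgroup = V :=
    InfiniteGalois.fixingSubgroup_fixedField ⟨V, hclosed⟩
  have hFle : IntermediateField.fixedField V ≤ F1 := by
    rw [← InfiniteGalois.fixedField_fixingSubgroup F1]
    exact IntermediateField.fixedField_antitone hle
  exact ⟨IntermediateField.fixedField V,
    FiniteDimensional.of_injective (IntermediateField.inclusion hFle).toLinearMap
      (IntermediateField.inclusion_injective hFle), hfix⟩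

/-- A place lies over at most one rational prime. -/
theorem Levels.liesOverPrime_unique {𝒜 : Place} {q q' : Nat.Primes}
    (h : 𝒜.LiesOverPrime (q : ℕ)) (h' : 𝒜.LiesOverPrime (q' : ℕ)) : q = q' := by
  by_contra hne
  have hcop : Nat.Coprime (q : ℕ) (q' : ℕ) :=
    (Nat.coprime_primes q.2 q'.2).2 fun e => hne (Subtype.ext e)
  have key : ∀ n : ℕ, 𝒜.LiesOverPrime n → ((n : ℕ) : IsLocalRing.ResidueField 𝒜) = 0 := by
    intro n hn
    have h1 : ((n : 𝒜) : Qbar) ∈ 𝒜.nonunits := by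
      have : ((n : 𝒜) : Qbar) = (n : Qbar) := by simp
      rw [this]; exact hn
    rw [ValuationSubring.coe_mem_nonunits_iff, ← IsLocalRing.residue_eq_zero_iff,
      map_natCast] at h1
    exact h1
  have hb := Nat.gcd_eq_gcd_ab (q : ℕ) (q' : ℕ)
  rw [Nat.Coprime] at hcop
  rw [hcop] at hb
  have := congrArg (Int.cast : ℤ → IsLocalRing.ResidueField 𝒜) hb
  push_cast at this
  rw [key _ h, key _ h'] at this
  simp at this

/-- (`exists_field_of_isOpen`, `isOpen_LS_of_isUnramifiedOutside`.) -/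
theorem isOpen_LS_of_inertia {S : Finset Nat.Primes} {W : Subgroup GQ} (hW : Lall.IsOpen W)
    (h : ∀ 𝒜 : Place, 𝒜.IsFin → ¬ 𝒜.OverS S → Ine 𝒜 ≤ W) : (LS S).IsOpen W := by
  obtain ⟨F, hF, rfl⟩ := exists_field_of_isOpen hW
  refine isOpen_LS_of_isUnramifiedOutside ⟨hF, fun q hq 𝒜 h𝒜 => h 𝒜 ⟨q, h𝒜⟩ ?_⟩
  rintro ⟨q', hq', h𝒜'⟩
  exact hq (Levels.liesOverPrime_unique h𝒜 h𝒜' ▸ hq')

theorem Ine_le_of_mem_LS {S : Finset Nat.Primes} {U : Subgroup GQ} (hU : U ∈ LS S) {𝒜 : Place}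
    (hfin : 𝒜.IsFin) (h : ¬ 𝒜.OverS S) : Ine 𝒜 ≤ U := by
  obtain ⟨-, F, hF, rfl⟩ := hU
  obtain ⟨q, hq⟩ := hfin
  exact hF.2 q (fun hqS => h ⟨q, hqS, hq⟩) 𝒜 hq

theorem Ine_le_of_isOpen_LS {S : Finset Nat.Primes} {W : Subgroup GQ} (hW : (LS S).IsOpen W)
    {𝒜 : Place} (hfin : 𝒜.IsFin) (h : ¬ 𝒜.OverS S) : Ine 𝒜 ≤ W := by
  obtain ⟨U, hU, hle⟩ := hW
  exact (Ine_le_of_mem_LS hU hfin h).trans hle

theorem isOpen_Lall_of_isOpen_LS {S : Finset Nat.Primes} {W : Subgroup GQ} (hW : (LS S).IsOpen W) :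
    Lall.IsOpen W := by
  obtain ⟨U, hU, hle⟩ := hW
  exact ⟨U, LS_le_Lall S hU, hle⟩

/-- (`Levels_conj_mem_inertiaSubgroupIn`.) -/
theorem conj_mem_Ine {𝒜 : Place} (g : GQ) {i : GQ} (hi : i ∈ Ine 𝒜) : g * i * g⁻¹ ∈ Ine (g • 𝒜) :=
  Levels_conj_mem_inertiaSubgroupIn 𝒜 g i hi

theorem conj_mem_Dec {𝒜 : Place} (g : GQ) {d : GQ} (hd : d ∈ Dec 𝒜) : g * d * g⁻¹ ∈ Dec (g • 𝒜) := by
  have hd' : d • 𝒜 = 𝒜 := hd
  change (g * d * g⁻¹) • (g • 𝒜) = g • 𝒜
  rw [← mul_smul, inv_mul_cancel_right, mul_smul, hd']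

theorem not_liesOverPrime_of_not_overS {p : ℕ} [Fact p.Prime] {S : Finset Nat.Primes}
    (hpS : pPrime p ∈ S) {𝒜 : Place} (h : ¬ 𝒜.OverS S) : ¬ 𝒜.LiesOverPrime p :=
  fun h' => h ⟨pPrime p, hpS, h'⟩

end Fermat.Agent.PT.Koch

end
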