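/-
S55 block K, leaf `PlaceSys`: a place system for `(S, Vof N)` is the same as the set `SN N S` of places of `N`
over `S`.
-/
import Fermat.Agent.PT.Koch.Defs

set_option autoImplicit false

open NumberField IsDedekindDomain Fermat.Agent.CFT ExtCitation
open scoped Pointwise

noncomputable section

namespace Fermat.Agent.PT.Koch

variable {N : Type*} [Field N] [NumberField N] [Algebra N Qbar] {S : Finset Nat.Primes}

/-- (`over_plOf_iff`.) -/
theorem plOf_mem_SN_iff {𝒜 : Place} (h : 𝒜.IsFin) : plOf N 𝒜 h ∈ SN N S ↔ 𝒜.OverS S := by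
  constructor
  · rintro ⟨q, hq, hv⟩
    exact ⟨q, hq, (over_plOf_iff h q).mp hv⟩
  · rintro ⟨q, hq, hv⟩
    exact ⟨q, hq, (over_plOf_iff h q).mpr hv⟩

theorem not_overS_plc {v : Pl N} (hv : v ∉ SN N S) : ¬ (plc v).OverS S := by
  intro h
  apply hv
  have := (plOf_mem_SN_iff (N := N) (S := S) (plc_isFin v)).mpr h
  rwa [plOf_plc] at this

/-- (`finite_over`.) -/
theorem finite_SN : (SN N S).Finite := by
  have h : SN N S = ⋃ q ∈ S, {v : Pl N | Over v (q : ℕ)} := by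
    ext v
    simp only [SN, Set.mem_iUnion, Set.mem_ofPred_eq, exists_prop]
  rw [h]
  exact S.finite_toSet.biUnion fun q _ => finite_over (q : ℕ) q.2.ne_zero

theorem over_mem_SN {p : ℕ} [Fact p.Prime] (hpS : pPrime p ∈ S) (v : Pl N) (hv : Over v p) :
    v ∈ SN N S := ⟨pPrime p, hpS, hv⟩

variable {ι : Type} {𝒜 : ι → Place}

/-- (`exists_smul_eq_of_plOf_eq` + `IsPlaceSystem.inj`.) -/
theorem placeSystem_injective (hsys : IsPlaceSystem S (Vof N) 𝒜) :
    Function.Injective fun i => plOf N (𝒜 i) (isFin_of_overS (hsys.overS i)) := by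
  intro i j hij
  obtain ⟨g, hg, hgij⟩ := exists_smul_eq_of_plOf_eq (N := N) _ _ hij
  exact hsys.inj i j g hg hgij

theorem placeSystem_mem_SN (hsys : IsPlaceSystem S (Vof N) 𝒜) (i : ι) :
    plOf N (𝒜 i) (isFin_of_overS (hsys.overS i)) ∈ SN N S :=
  (plOf_mem_SN_iff _).mpr (hsys.overS i)

/-- (`exists_plOf_eq`, `IsPlaceSystem.surj`, `plOf_smul_of_mem_Vof`.) -/
theorem placeSystem_surj (hsys : IsPlaceSystem S (Vof N) 𝒜) {v : Pl N} (hv : v ∈ SN N S) :
    ∃ i, plOf N (𝒜 i) (isFin_of_overS (hsys.overS i)) = v := by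
  obtain ⟨ℬ, hℬ, rfl⟩ := exists_plOf_eq v
  obtain ⟨i, g, hg, hgi⟩ := hsys.surj ℬ ((plOf_mem_SN_iff hℬ).mp hv)
  refine ⟨i, ?_⟩
  rw [← plOf_smul_of_mem_Vof (isFin_of_overS (hsys.overS i)) hg]
  subst hgi
  rfl

/-- every place of `Qbar` outside `S` is `Vof N`-conjugate to a chosen one. -/
theorem exists_smul_plc_eq {ℬ : Place} (h : ℬ.IsFin) : ∃ g ∈ Vof N, g • plc (plOf N ℬ h) = ℬ :=
  exists_smul_eq_of_plOf_eq (plc_isFin _) h (plOf_plc _)

end Fermat.Agent.PT.Koch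

end
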