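/-
S55 block K, leaf `Formal`: formal cochain identities behind Koch's argument (abstract group `G`).

Situation: `z ∈ Z2 L V ρ` (smooth for the SMALL level system `L`), `z = d1 ν` with `ν ∈ X1 L' V ρ` smooth only
for the BIG level system `L' ≥ L`; `V` is `L`-open and acts trivially on `A`.
Put `r u = ν 1 u - ν 1 1`.  Let `U ∈ L` be a level of `z` with `U ≤ V` (`U` is normal in `G`).  From
`d1 ν = z`, right `U`-invariance of `z`, `V`-equivariance of `ν`: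
  (a) `ν g₀ (g₁ u) = ν g₀ g₁ + ν g₁ (g₁ u) - ν g₁ g₁`,  `ν (g₀ u) g₁ = ν g₀ g₁ - ν g₀ (g₀ u) + ν g₀ g₀`  (`u ∈ U`)
      [evaluate `d1 ν = z` at `(g₀,g₁,g₁u)`, `(g₀,g₁,g₁)`, resp. `(g₀,g₀u,g₁)`, `(g₀,g₀,g₁)`];
  (b) `ν 1 (i g) - ν 1 g = r i` for `i ∈ U`, all `g`  [evaluate at `(1,i,ig)` and `(1,1,g)`; `i g = g (g⁻¹ i g)`;
      `ν i (i g) = ν 1 g`];
  (c) `ν g (g u) - ν g g = r (g u g⁻¹)` for `u ∈ U`  [evaluate at `(1,g,gu)`, `(1,g,g)`, then (b) with `i = g u g⁻¹`];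
  (d) hence `r (i j) = r i + r j` on `U`, `r (v i v⁻¹) = r i` for `v ∈ V` [(c) with `g = v` and equivariance];
  (e) if `r = 0` on a level `U'' ∈ L` then (take `U''' ∈ L` below `U''` and `U`) `ν` is right `U'''`-invariant by
      (a), (c);
  (f) `h g₀ g₁ := z 1 g₀ g₁` satisfies `d1 h = z` (as `d2 z = 0`), is `U`-equivariant and `L`-smooth, so
      `f = ν - h ∈ Z1 L' U ρ`, and `f 1 u = ν 1 u - z 1 1 u = ν 1 u - z 1 1 1 = r u`.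
-/
import Fermat.Agent.PT.Coh.Defs

set_option autoImplicit false

namespace Fermat.Agent.PT.Koch

variable {k G A : Type*} [CommRing k] [Group G] [AddCommGroup A] [Module k A]
variable {L L' : LevelSystem G} {V : Subgroup G} {ρ : Representation k G A}

namespace Formal

/-- the hypotheses common to all the formal identities. -/
structure Data (V U : Subgroup G) (ν : G → G → A) (z : G → G → G → A) : Prop where
  normal : U.Normal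
  le : U ≤ V
  hD : ∀ g₀ g₁ g₂, ν g₁ g₂ - ν g₀ g₂ + ν g₀ g₁ = z g₀ g₁ g₂
  hz : ∀ g₀ g₁ g₂, ∀ u₀ ∈ U, ∀ u₁ ∈ U, ∀ u₂ ∈ U, z (g₀ * u₀) (g₁ * u₁) (g₂ * u₂) = z g₀ g₁ g₂
  hν : ∀ v ∈ V, ∀ g₀ g₁, ν (v * g₀) (v * g₁) = ν g₀ g₁

variable {U : Subgroup G} {ν : G → G → A} {z : G → G → G → A}

theorem Data.a1 (h : Data V U ν z) (g₀ g₁ : G) {u : G} (hu : u ∈ U) :
    ν g₀ (g₁ * u) = ν g₀ g₁ + ν g₁ (g₁ * u) - ν g₁ g₁ := by
  have e1 := h.hD g₀ g₁ (g₁ * u)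
  have e2 := h.hD g₀ g₁ g₁
  have e3 := h.hz g₀ g₁ g₁ 1 U.one_mem 1 U.one_mem u hu
  rw [mul_one, mul_one] at e3
  linear_combination (norm := abel) e2 - e1 - e3

theorem Data.a2 (h : Data V U ν z) (g₀ g₁ : G) {u : G} (hu : u ∈ U) :
    ν (g₀ * u) g₁ = ν g₀ g₁ - ν g₀ (g₀ * u) + ν g₀ g₀ := by
  have e1 := h.hD g₀ (g₀ * u) g₁
  have e2 := h.hD g₀ g₀ g₁
  have e3 := h.hz g₀ g₀ g₁ 1 U.one_mem u hu 1 U.one_mem
  rw [mul_one, mul_one] at e3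
  linear_combination (norm := abel) e1 - e2 + e3

theorem Data.b (h : Data V U ν z) {i : G} (hi : i ∈ U) (g : G) :
    ν 1 (i * g) - ν 1 g = ν 1 i - ν 1 1 := by
  have e1 := h.hD 1 i (i * g)
  have e2 := h.hD 1 1 g
  have hn := h.normal
  have hc : g⁻¹ * i * g ∈ U := by
    have := hn.conj_mem i hi g⁻¹
    rwa [inv_inv] at this
  have e3 := h.hz 1 1 g 1 U.one_mem i hi (g⁻¹ * i * g) hc
  have e4 : g * (g⁻¹ * i * g) = i * g := by group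
  rw [mul_one, one_mul, e4] at e3
  have e5 := h.hν i (h.le hi) 1 g
  rw [mul_one] at e5
  linear_combination (norm := abel) e2 - e1 - e3 + e5

theorem Data.c (h : Data V U ν z) (g : G) {u : G} (hu : u ∈ U) :
    ν g (g * u) - ν g g = ν 1 (g * u * g⁻¹) - ν 1 1 := by
  have e1 := h.hD 1 g (g * u)
  have e2 := h.hD 1 g g
  have e3 := h.hz 1 g g 1 U.one_mem 1 U.one_mem u hu
  rw [mul_one, mul_one] at e3
  have e4 := h.b (h.normal.conj_mem u hu g) g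
  rw [inv_mul_cancel_right] at e4
  linear_combination (norm := abel) e1 - e2 + e3 + e4

theorem Data.d1 (h : Data V U ν z) {i : G} (hi : i ∈ U) (j : G) :
    ν 1 (i * j) - ν 1 1 = (ν 1 i - ν 1 1) + (ν 1 j - ν 1 1) := by
  have e1 := h.b hi j
  linear_combination (norm := abel) e1

theorem Data.d2 (h : Data V U ν z) {v : G} (hv : v ∈ V) {i : G} (hi : i ∈ U) :
    ν 1 (v * i * v⁻¹) = ν 1 i := by
  have e1 := h.c v hi
  have e2 := h.hν v hv 1 i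
  have e3 := h.hν v hv 1 1
  rw [mul_one] at e2 e3
  linear_combination (norm := abel) e2 - e3 - e1

/-- existence of the data. -/
theorem exists_data (hV : L.IsOpen V) (htriv : ∀ v ∈ V, ∀ a, ρ v a = a)
    {z : G → G → G → A} (hz : z ∈ X2 L V ρ) {ν : G → G → A} (hν : Equivariant1 V ρ ν)
    (hd : d1 (k := k) ν = z) : ∃ U ∈ L, Data V U ν z := by
  obtain ⟨U₁, hU₁, hU₁V⟩ := hV
  obtain ⟨-, U₂, hU₂, hs⟩ := hz
  obtain ⟨U, hU, h1, h2⟩ := L.directed' U₁ hU₁ U₂ hU₂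
  refine ⟨U, hU, L.normal' U hU, h1.trans hU₁V, ?_, ?_, ?_⟩
  · intro g₀ g₁ g₂
    rw [← hd, d1_apply]
  · intro g₀ g₁ g₂ u₀ h₀ u₁ h₁ u₂ h₂'
    exact hs g₀ g₁ g₂ u₀ (h2 h₀) u₁ (h2 h₁) u₂ (h2 h₂')
  · intro v hv g₀ g₁
    rw [hν v hv, htriv v hv]

end Formal

/-- (e) -/
theorem mem_X1_of_vanish (hV : L.IsOpen V) (htriv : ∀ v ∈ V, ∀ a, ρ v a = a)
    {z : G → G → G → A} (hz : z ∈ X2 L V ρ) {ν : G → G → A} (hν : Equivariant1 V ρ ν)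
    (hd : d1 (k := k) ν = z) {U'' : Subgroup G} (hU'' : U'' ∈ L)
    (h0 : ∀ u ∈ U'', ν 1 u = ν 1 1) : ν ∈ X1 L V ρ := by
  obtain ⟨U, hU, h⟩ := Formal.exists_data hV htriv hz hν hd
  obtain ⟨W, hW, h1, h2⟩ := L.directed' U hU U'' hU''
  have hWn := L.normal' W hW
  refine ⟨hν, W, hW, fun g₀ g₁ u₀ h₀ u₁ h₁ => ?_⟩
  have e1 := h.a1 (g₀ * u₀) g₁ (h1 h₁)
  have e2 := h.a2 g₀ g₁ (h1 h₀)
  have e3 := h.c g₁ (h1 h₁)
  have e4 := h.c g₀ (h1 h₀)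
  have e5 := h0 _ (h2 (hWn.conj_mem u₁ h₁ g₁))
  have e6 := h0 _ (h2 (hWn.conj_mem u₀ h₀ g₀))
  linear_combination (norm := abel) e1 + e2 + e3 - e4 + e5 - e6

/-- (d), (f) -/
theorem exists_level_data (hLL' : L ≤ L') (hV : L.IsOpen V) (htriv : ∀ v ∈ V, ∀ a, ρ v a = a)
    {z : G → G → G → A} (hz : z ∈ Z2 L V ρ) {ν : G → G → A} (hν : ν ∈ X1 L' V ρ)
    (hd : d1 (k := k) ν = z) :
    ∃ U ∈ L, U ≤ V ∧
      (∃ f ∈ Z1 L' U ρ, ∀ u ∈ U, f 1 u = ν 1 u - ν 1 1) ∧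
      (∀ i ∈ U, ∀ j ∈ U, ν 1 (i * j) - ν 1 1 = (ν 1 i - ν 1 1) + (ν 1 j - ν 1 1)) ∧
      (∀ v ∈ V, ∀ i ∈ U, ν 1 (v * i * v⁻¹) = ν 1 i) := by
  obtain ⟨U, hU, h⟩ := Formal.exists_data hV htriv hz.1 hν.1 hd
  refine ⟨U, hU, h.le, ?_, fun i hi j _ => h.d1 hi j, fun v hv i hi => h.d2 hv hi⟩
  have hzV : ∀ v ∈ V, ∀ g₀ g₁ g₂, z (v * g₀) (v * g₁) (v * g₂) = z g₀ g₁ g₂ := by
    intro v hv g₀ g₁ g₂
    rw [hz.1.1 v hv, htriv v hv]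
  have hh : (fun g₀ g₁ => z 1 g₀ g₁) ∈ X1 L' U ρ := by
    refine ⟨fun u hu g₀ g₁ => ?_, U, hLL' hU, fun g₀ g₁ u₀ h₀ u₁ h₁ => ?_⟩
    · rw [htriv u (h.le hu)]
      have e1 := hzV u (h.le hu) u⁻¹ g₀ g₁
      rw [mul_inv_cancel] at e1
      have e2 := h.hz 1 g₀ g₁ u⁻¹ (U.inv_mem hu) 1 U.one_mem 1 U.one_mem
      rw [one_mul, mul_one, mul_one] at e2
      exact e1.trans e2
    · have e := h.hz 1 g₀ g₁ 1 U.one_mem u₀ h₀ u₁ h₁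
      rwa [mul_one] at e
  have hνU : ν ∈ X1 L' U ρ := ⟨fun u hu => hν.1 u (h.le hu), hν.2⟩
  refine ⟨ν - fun g₀ g₁ => z 1 g₀ g₁, ⟨Submodule.sub_mem _ hνU hh, ?_⟩, fun u hu => ?_⟩
  · change d1 (k := k) _ = 0
    rw [map_sub, hd, sub_eq_zero]
    funext g₀ g₁ g₂
    have e := congrFun (congrFun (congrFun (congrFun hz.2 1) g₀) g₁) g₂
    rw [d2_apply] at e
    rw [d1_apply]
    have e' : z g₀ g₁ g₂ - z 1 g₁ g₂ + z 1 g₀ g₂ - z 1 g₀ g₁ = 0 := e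
    linear_combination (norm := abel) e'
  · have e1 := h.hz 1 1 1 1 U.one_mem 1 U.one_mem u hu
    rw [mul_one, one_mul] at e1
    have e2 := h.hD 1 1 1
    change ν 1 u - z 1 1 u = _
    linear_combination (norm := abel) e2 - e1

/-- degree one version of (e): a cocycle whose character dies on a level of `L` is `L`-smooth. -/
theorem mem_Z1_of_vanish (hV : L.IsOpen V) (htriv : ∀ v ∈ V, ∀ a, ρ v a = a)
    {f : G → G → A} (hf : f ∈ Z1 L' V ρ) {U'' : Subgroup G} (hU'' : U'' ∈ L)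
    (h0 : ∀ u ∈ U'', f 1 u = 0) : f ∈ Z1 L V ρ := by
  refine ⟨mem_X1_of_vanish hV htriv (Submodule.zero_mem _) hf.1.1 hf.2 hU'' (fun u hu => ?_), hf.2⟩
  rw [h0 u hu, h0 1 U''.one_mem]

end Fermat.Agent.PT.Koch
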