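/-
S55 block K, leaf `RelBasic`: Koch's relation is additive and contains `(0, principal divisors)`.
-/
import Fermat.Agent.PT.Koch.KumApi
import Fermat.Agent.PT.Koch.Levels
import Fermat.Agent.PT.Koch.PlaceSys

set_option autoImplicit false

open NumberField IsDedekindDomain Fermat.Agent.CFT Fermat.Agent.PT.Arith ExtCitation

noncomputable section

namespace Fermat.Agent.PT.Koch

variable {N : Type*} [Field N] [NumberField N] [Algebra N Qbar]
variable {p : ℕ} [Fact p.Prime] {ι : ZMod p →+ Additive Qbarˣ}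
  (K : KummerSetup Lall p multRep (cycRep p) ι) {S : Finset Nat.Primes}

/-- the inertia groups used in `KRel` lie in `Vof N`. -/
theorem Ine_plc_le (hVS : (LS S).IsOpen (Vof N)) (v : {v : Pl N // v ∉ SN N S}) :
    Ine (plc v.1) ≤ Vof N :=
  Ine_le_of_isOpen_LS hVS (plc_isFin _) (not_overS_plc v.2)

/-- `ν - ν'`, `b / b'`; `kum_one_sub` on `W = Ine (plc v) ≤ Vof N ≤ G1 p`, `emb_div`, `ord_div`. -/
theorem KRel.sub (hVS : (LS S).IsOpen (Vof N)) (hV1 : Vof N ≤ G1 p)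
    {z z' : GQ → GQ → GQ → ZMod p} {δ δ' : DivS N p (SN N S)}
    (h : KRel K S z δ) (h' : KRel K S z' δ') : KRel K S (z - z') (δ - δ') := by
  obtain ⟨ν, hν, hd, hv⟩ := h
  obtain ⟨ν', hν', hd', hv'⟩ := h'
  refine ⟨ν - ν', sub_mem hν hν', by rw [map_sub, hd, hd'], fun v => ?_⟩
  obtain ⟨b, hb, hi⟩ := hv v
  obtain ⟨b', hb', hi'⟩ := hv' v
  refine ⟨b / b', ?_, fun i hiI => ?_⟩
  · rw [Units.val_div_eq_div_val, ord_div v.1 b.ne_zero b'.ne_zero, Int.cast_sub, hb, hb']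
    rfl
  · have hW : Ine (plc v.1) ≤ G1 p := (Ine_plc_le hVS v).trans hV1
    have hfix : ∀ c : Nˣ, ∀ w ∈ Ine (plc v.1), multRep w (emb c) = emb c :=
      fun c w hw => multRep_emb (Ine_plc_le hVS v hw) c
    rw [emb_div, kum_one_sub K hW (hfix b) (hfix b') i hiI, ← hi i hiI, ← hi' i hiI]
    simp only [Pi.sub_apply]
    abel

/-- `ν = K.kum (emb a)` (a cocycle of `Vof N`: `K.kum_mem_Z1`, `multRep_emb`), `b = a` for all `v`,
`ν 1 1 = 0`. -/
theorem KRel_zero_of_mem_range {δ : DivS N p (SN N S)} (hδ : δ ∈ (divS (M := N) p (SN N S)).range) :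
    KRel K S 0 δ := by
  obtain ⟨x, rfl⟩ := hδ
  have hZ : K.kum (emb (Additive.toMul x)) ∈ Z1 Lall (Vof N) (cycRep p) :=
    K.kum_mem_Z1 (fun v hv => multRep_emb hv _)
  refine ⟨K.kum (emb (Additive.toMul x)), hZ.1, (mem_Z1.mp hZ).2, fun v => ?_⟩
  refine ⟨Additive.toMul x, rfl, fun i _ => ?_⟩
  rw [one_one_eq_zero hZ, sub_zero]

end Fermat.Agent.PT.Koch

end
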