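/-
S55 block K, leaf `RelInj`: a cocycle related to the divisor `0` is an `S`-coboundary.
-/
import Fermat.Agent.PT.Koch.RelBasic
import Fermat.Agent.PT.Koch.Formal
import Fermat.Agent.PT.Hens.Kummer

set_option autoImplicit false

open NumberField IsDedekindDomain Fermat.Agent.CFT Fermat.Agent.PT.Arith ExtCitation
open scoped Pointwise

noncomputable section

namespace Fermat.Agent.PT.Koch

variable {N : Type*} [Field N] [NumberField N] [Algebra N Qbar]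
variable {p : ℕ} [Fact p.Prime] {ι : ZMod p →+ Additive Qbarˣ}
  (K : KummerSetup Lall p multRep (cycRep p) ι) {S : Finset Nat.Primes}

/-- tame Kummer bridge in terms of `K.kum`
(`dvd_ord_plOf_iff` of `PT/Hens/Kummer.lean` with `β` a `p`-th root of `b`, `kum_one_eq_zero_iff`). -/
theorem dvd_ord_iff_kum {ζ : N} (hζ : IsPrimitiveRoot ζ p) (hV1 : Vof N ≤ G1 p) {𝒜 : Place}
    (h : 𝒜.IsFin) (hp : ¬ 𝒜.LiesOverPrime p) (b : Nˣ) :
    (p : ℤ) ∣ ord (plOf N 𝒜 h) (b : N) ↔ ∀ g ∈ Vof N ⊓ Ine 𝒜, K.kum (emb b) 1 g = 0 := by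
  have hp0 : 0 < p := (Fact.out : p.Prime).pos
  obtain ⟨β, hβ⟩ := IsAlgClosed.exists_pow_nat_eq (algebraMap N Qbar b) hp0
  rw [dvd_ord_plOf_iff h hζ hp b hβ]
  refine forall₂_congr fun g hg => ?_
  have hgV : g ∈ Vof N := hg.1
  have hfix : g ((Units.map (algebraMap N Qbar : N →* Qbar) b : Qbarˣ) : Qbar)
      = ((Units.map (algebraMap N Qbar : N →* Qbar) b : Qbarˣ) : Qbar) := hgV (b : N)
  exact (kum_one_eq_zero_iff K (hV1 hgV) hfix hβ).symm

/-- **Injectivity of Koch's relation.**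
Let `ν` be as in `KRel K S z 0`, `U` as in `exists_level_data`.  For `v ∉ SN N S`: `p ∣ ord_v b`, so `ν 1 i = ν 1 1` on
`Ine (plc v)` (`dvd_ord_iff_kum`, `plOf_plc`).  For an arbitrary finite `ℬ` not over `S`: `ℬ = g • plc v`, `g ∈ Vof N`
(`exists_smul_plc_eq`, `plOf_mem_SN_iff`), for `i ∈ Ine ℬ`, `i' = g⁻¹ i g ∈ Ine (plc v) ≤ U` (`conj_mem_Ine`,
`Ine_le_of_mem_LS`) and `ν 1 i = ν 1 (g i' g⁻¹) = ν 1 i' = ν 1 1`.  `W = {u ∈ U | ν 1 u = ν 1 1}` is a subgroup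
(additivity in `exists_level_data`), it is `Lall`-open (contains `U ⊓ U'`, `U'` a level of `ν`) and contains all
these `Ine ℬ`, so it is `(LS S)`-open (`isOpen_LS_of_inertia`); `mem_X1_of_vanish` gives `ν ∈ X1 (LS S)`. -/
theorem mem_B2_of_KRel_zero {ζ : N} (hζ : IsPrimitiveRoot ζ p) (hpS : pPrime p ∈ S)
    (hVS : (LS S).IsOpen (Vof N)) (hV1 : Vof N ≤ G1 p)
    {z : GQ → GQ → GQ → ZMod p} (hz : z ∈ Z2 (LS S) (Vof N) (cycRep p)) (h : KRel (N := N) K S z 0) :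
    z ∈ B2 (LS S) (Vof N) (cycRep p) := by
  obtain ⟨ν, hν, hd, hb⟩ := h
  have htriv : ∀ v ∈ Vof N, ∀ a, cycRep p v a = a :=
    fun v hv a => cycRep_apply_of_mem_G1 (hV1 hv) a
  obtain ⟨U, hU, hUV, -, hadd, hconj⟩ :=
    exists_level_data (LS_le_Lall S) hVS htriv hz hν hd
  -- the chosen places
  have hA : ∀ v : {v : Pl N // v ∉ SN N S}, ∀ i ∈ Ine (plc v.1), ν 1 i = ν 1 1 := by
    intro v i hi
    obtain ⟨b, hb0, hbi⟩ := hb v
    have hdvd : (p : ℤ) ∣ ord (plOf N (plc v.1) (plc_isFin v.1)) (b : N) := by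
      rw [plOf_plc]
      rw [Finsupp.coe_zero, Pi.zero_apply] at hb0
      exact (ZMod.intCast_zmod_eq_zero_iff_dvd _ p).1 hb0
    have h0 := (dvd_ord_iff_kum K hζ hV1 (plc_isFin v.1)
      (not_liesOverPrime_of_not_overS hpS (not_overS_plc v.2)) b).1 hdvd i
      ⟨Ine_plc_le hVS v hi, hi⟩
    have := hbi i hi
    rw [h0] at this
    exact sub_eq_zero.1 this
  -- all places outside `S`
  have hB : ∀ ℬ : Place, ℬ.IsFin → ¬ ℬ.OverS S → ∀ i ∈ Ine ℬ, ν 1 i = ν 1 1 := by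
    intro ℬ hfin hS i hi
    have hv : plOf N ℬ hfin ∉ SN N S := fun h' => hS ((plOf_mem_SN_iff hfin).1 h')
    obtain ⟨g, hg, hgℬ⟩ := exists_smul_plc_eq (N := N) hfin
    have hi' : g⁻¹ * i * g ∈ Ine (plc (plOf N ℬ hfin)) := by
      have h1 := conj_mem_Ine g⁻¹ hi
      rw [inv_inv, ← hgℬ, inv_smul_smul] at h1
      exact h1
    have hi'U : g⁻¹ * i * g ∈ U :=
      Ine_le_of_mem_LS hU (plc_isFin _) (not_overS_plc hv) hi'
    have h2 := hconj g hg _ hi'U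
    have h3 : g * (g⁻¹ * i * g) * g⁻¹ = i := by group
    rw [h3] at h2
    rw [h2]
    exact hA ⟨_, hv⟩ _ hi'
  -- the subgroup `W`
  let W : Subgroup GQ :=
    { carrier := {u | u ∈ U ∧ ν 1 u = ν 1 1}
      one_mem' := ⟨U.one_mem, rfl⟩
      mul_mem' := by
        rintro a b ⟨ha, ha'⟩ ⟨hb, hb'⟩
        refine ⟨U.mul_mem ha hb, ?_⟩
        have := hadd a ha b hb
        rw [ha', hb', sub_self, add_zero] at this
        exact sub_eq_zero.1 this
      inv_mem' := by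
        rintro a ⟨ha, ha'⟩
        refine ⟨U.inv_mem ha, ?_⟩
        have := hadd a ha a⁻¹ (U.inv_mem ha)
        rw [mul_inv_cancel, ha', sub_self, zero_add] at this
        exact (sub_eq_zero.1 this.symm) }
  have hWopen : Lall.IsOpen W := by
    obtain ⟨-, U', hU', hs⟩ := hν
    obtain ⟨W0, hW0, h1, h2⟩ := Lall.directed' U (LS_le_Lall S hU) U' hU'
    refine ⟨W0, hW0, fun u hu => ⟨h1 hu, ?_⟩⟩
    have := hs 1 1 1 U'.one_mem u (h2 hu)
    rwa [mul_one, one_mul] at this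
  have hWS : (LS S).IsOpen W := by
    refine isOpen_LS_of_inertia hWopen fun ℬ hfin hS i hi => ?_
    exact ⟨Ine_le_of_mem_LS hU hfin hS hi, hB ℬ hfin hS i hi⟩
  obtain ⟨U'', hU'', hle⟩ := hWS
  have hνS : ν ∈ X1 (LS S) (Vof N) (cycRep p) :=
    mem_X1_of_vanish hVS htriv hz.1 hν.1 hd hU'' fun u hu => (hle hu).2
  exact ⟨ν, hνS, hd⟩

end Fermat.Agent.PT.Koch

end
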