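/-
S55 block K, leaf `Unram`: the value group of a Galois number field unramified at `𝒜` is that of `ℚ`;
an element of `Qbar^×` is a unit at almost all places.
-/
import Fermat.Agent.PT.Koch.Defs
import Fermat.Agent.PT.Hens.RestrictIne

set_option autoImplicit false

open NumberField IsDedekindDomain Fermat.Agent.CFT ExtCitation

noncomputable section

namespace Fermat.Agent.PT.Koch

/-- `F/ℚ` finite Galois, unramified at `𝒜`.  Then every `x ∈ F^×` has the valuation of a rational number.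
Proof: `NumberField F` (`numberField_of_finiteDimensional`), `IsGalois ℚ F` (from `hn`), `w = plOf F 𝒜 h`,
`v = plOf ℚ 𝒜 h`, `Above w v` (`above_plOf_plOf`), `Unram ℚ w` (`unram_plOf_iff`, `Vof F = F.fixingSubgroup`),
`π : ℚ` with `ord v π = 1` (`exists_uniformizer`), so `ord w π = 1` (`ord_algebraMap_of_unram`);
`y = π ^ (ord w x)`; conclude with `ord_plOf_eq_iff`. -/
theorem exists_rat_valuation_eq {𝒜 : Place} (h : 𝒜.IsFin) (F : IntermediateField ℚ Qbar)
    [FiniteDimensional ℚ F] (hn : F.fixingSubgroup.Normal) (hI : Ine 𝒜 ≤ F.fixingSubgroup) {x : Qbar}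
    (hx : x ∈ F) (hx0 : x ≠ 0) :
    ∃ y : ℚ, y ≠ 0 ∧ 𝒜.valuation x = 𝒜.valuation (algebraMap ℚ Qbar y) := by
  have hNF : NumberField F := numberField_of_finiteDimensional F
  have hGal : IsGalois ℚ F := (InfiniteGalois.normal_iff_isGalois F).1 hn
  have habove : Above (plOf F 𝒜 h) (plOf ℚ 𝒜 h) := above_plOf_plOf h F
  have hunram : Unram ℚ (plOf F 𝒜 h) :=
    (unram_plOf_iff h).2 (inf_le_right.trans (hI.trans (Vof_intermediateField F).ge))
  obtain ⟨π, hπ⟩ := exists_uniformizer (plOf ℚ 𝒜 h)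
  have hπ0 : (π : ℚ) ≠ 0 := by
    intro h0
    rw [h0, ord_zero] at hπ
    exact zero_ne_one hπ
  let x' : F := ⟨x, hx⟩
  have hx'0 : x' ≠ 0 := fun h0 => hx0 (congrArg Subtype.val h0)
  refine ⟨(π : ℚ) ^ (ord (plOf F 𝒜 h) x'), zpow_ne_zero _ hπ0, ?_⟩
  have hy0 : algebraMap ℚ F ((π : ℚ) ^ (ord (plOf F 𝒜 h) x')) ≠ 0 :=
    (map_ne_zero _).2 (zpow_ne_zero _ hπ0)
  have h1 : ord (plOf F 𝒜 h) x'
      = ord (plOf F 𝒜 h) (algebraMap ℚ F ((π : ℚ) ^ (ord (plOf F 𝒜 h) x'))) := by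
    rw [ord_algebraMap_of_unram habove hunram, ord_zpow, hπ, mul_one]
  have h2 := (ord_plOf_eq_iff h hx'0 hy0).1 h1
  rw [← IsScalarTower.algebraMap_apply ℚ F Qbar] at h2
  exact h2

/-- Proof: `F = ℚ(x)` is a number field, `{w : Pl F | ord w x ≠ 0}` is finite (`finite_ord_ne_zero`), each `w`
lies over one prime (`exists_prime_over`, `over_unique`); if `𝒜` lies over `q` and `𝒜.valuation x ≠ 1` then
`ord (plOf F 𝒜 _) x ≠ 0` (`ord_plOf_eq_iff` with `y = 1`) and `plOf F 𝒜 _` lies over `q` (`over_plOf_iff`). -/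
theorem finite_primes_not_unit {x : Qbar} (hx : x ≠ 0) :
    {q : ℕ | q.Prime ∧ ∃ 𝒜 : Place, 𝒜.LiesOverPrime q ∧ 𝒜.valuation x ≠ 1}.Finite := by
  let F : IntermediateField ℚ Qbar := IntermediateField.adjoin ℚ {x}
  have hfd : FiniteDimensional ℚ F :=
    IntermediateField.adjoin.finiteDimensional (Algebra.IsIntegral.isIntegral (R := ℚ) x)
  have hNF : NumberField F := numberField_of_finiteDimensional F
  let x' : F := ⟨x, IntermediateField.mem_adjoin_simple_self ℚ x⟩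
  have hx'0 : x' ≠ 0 := fun h0 => hx (congrArg Subtype.val h0)
  have hfin : {w : Pl F | ord w x' ≠ 0}.Finite := finite_ord_ne_zero hx'0
  choose ℓ hℓ hℓo using fun w : Pl F => exists_prime_over w
  refine (hfin.image ℓ).subset ?_
  rintro q ⟨hq, 𝒜, h𝒜, hval⟩
  have h : 𝒜.IsFin := ⟨⟨q, hq⟩, h𝒜⟩
  refine ⟨plOf F 𝒜 h, ?_, ?_⟩
  · intro h0
    apply hval
    have h1 : ord (plOf F 𝒜 h) x' = ord (plOf F 𝒜 h) 1 := by rw [h0, ord_one]
    have h2 := (ord_plOf_eq_iff h hx'0 one_ne_zero).1 h1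
    rw [map_one, map_one] at h2
    exact h2
  · exact over_unique _ (hℓ _) hq (hℓo _) ((over_plOf_iff h q).2 h𝒜)

/-- (`finite_primes_not_unit`, `finite_over`, `exists_prime_over`, `over_plOf_iff`, `plOf_plc`.) -/
theorem finite_plc_not_unit (N : Type*) [Field N] [NumberField N] [Algebra N Qbar] {x : Qbar}
    (hx : x ≠ 0) : {v : Pl N | (plc v).valuation x ≠ 1}.Finite := by
  have hQ := finite_primes_not_unit hx
  have hfin : (⋃ q ∈ {q : ℕ | q.Prime ∧ ∃ 𝒜 : Place, 𝒜.LiesOverPrime q ∧ 𝒜.valuation x ≠ 1},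
      {v : Pl N | Over v q}).Finite :=
    hQ.biUnion fun q hq => finite_over q hq.1.ne_zero
  refine hfin.subset ?_
  intro v hv
  obtain ⟨q, hq, hvq⟩ := exists_prime_over v
  rw [Set.mem_iUnion₂]
  refine ⟨q, ⟨hq, plc v, ?_, hv⟩, hvq⟩
  rw [← over_plOf_iff (N := N) (plc_isFin v) q, plOf_plc]
  exact hvq

end Fermat.Agent.PT.Koch

end
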