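/-
S55 block K, leaf `RelTotal`: every `z ∈ ShaZ2` is related to some divisor.
-/
import Fermat.Agent.PT.Koch.RelBasic
import Fermat.Agent.PT.Koch.Formal
import Fermat.Agent.PT.Koch.Unram
import Fermat.Agent.PT.Hens.Kummer

set_option autoImplicit false

open NumberField IsDedekindDomain Fermat.Agent.CFT Fermat.Agent.PT.Arith ExtCitation

noncomputable section

namespace Fermat.Agent.PT.Koch

variable {N : Type*} [Field N] [NumberField N] [Algebra N Qbar]
variable {p : ℕ} [Fact p.Prime] {ι : ZMod p →+ Additive Qbarˣ}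
  (K : KummerSetup Lall p multRep (cycRep p) ι) {S : Finset Nat.Primes}

/-- Step 1: a class of `Ш²_S` dies in `H²(G_N, μ_p)`.
`z ∈ Z2 Lall` (`LS_le_Lall`); at `𝒜` over `S` by definition of `ShaZ2`, at the other finite places by `hNr`;
then `hHP`. -/
theorem mem_B2_Lall_of_mem_ShaZ2 (hHP : HPStatement p) (hNr : LocalNrStatement p)
    (hpS : pPrime p ∈ S) {V : Subgroup GQ} (hVS : (LS S).IsOpen V)
    {z : GQ → GQ → GQ → ZMod p} (hz : z ∈ ShaZ2 S V (cycRep p)) : z ∈ B2 Lall V (cycRep p) := by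
  obtain ⟨hzZ, hzloc⟩ := Submodule.mem_inf.mp hz
  have hzZ' : z ∈ Z2 Lall V (cycRep p) := by
    obtain ⟨⟨he, U, hU, hs⟩, hd⟩ := hzZ
    exact ⟨⟨he, U, LS_le_Lall S hU, hs⟩, hd⟩
  refine hHP V (isOpen_Lall_of_isOpen_LS hVS) z hzZ' fun 𝒜 hfin => ?_
  by_cases hS : 𝒜.OverS S
  · have h1 := (Submodule.mem_iInf _).mp hzloc 𝒜
    exact (Submodule.mem_iInf _).mp h1 hS
  · exact hNr S hpS V hVS 𝒜 hfin hS z hzZ

/-- Step 2 (local analysis at one place `𝒜` outside `S`).  `U = F.fixingSubgroup ∈ LS S`, `α` fixed by `U`.  Then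
the Kummer character of `α` on `Ine 𝒜` is that of a rational number `y`, and `y = 1` if `α` is a unit at `𝒜`.
Proof: `α ∈ F` (`InfiniteGalois.fixedField_fixingSubgroup`), `Ine 𝒜 ≤ U` (`Ine_le_of_mem_LS`);
`exists_rat_valuation_eq` gives `y` (take `y = 1` if `𝒜.valuation α = 1`); `ε = α / y` has valuation `1`;
`kum_one_add` on `W = Ine 𝒜` (`≤ U ≤ G1 p`): `kum α 1 i = kum y 1 i + kum ε 1 i`; and `kum ε 1 i = 0` by
`kum_one_eq_zero_iff` + `apply_eq_of_mem_Ine_of_pow_unit` (`PT/Hens/Kummer.lean`), `β` any `p`-th root of `ε`. -/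
theorem exists_rat_kum_eq (hpS : pPrime p ∈ S) {U : Subgroup GQ} (hU : U ∈ LS S) (hU1 : U ≤ G1 p)
    {α : Qbarˣ} (hα : ∀ u ∈ U, u (α : Qbar) = α) {𝒜 : Place} (hfin : 𝒜.IsFin) (hS : ¬ 𝒜.OverS S) :
    ∃ y : ℚˣ, (𝒜.valuation (α : Qbar) = 1 → y = 1) ∧
      ∀ i ∈ Ine 𝒜, K.kum (Additive.ofMul α) 1 i =
        K.kum (Additive.ofMul (Units.map (algebraMap ℚ Qbar : ℚ →* Qbar) y)) 1 i := by
  have hIU : Ine 𝒜 ≤ U := Ine_le_of_mem_LS hU hfin hS
  have hI1 : Ine 𝒜 ≤ G1 p := hIU.trans hU1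
  have hp𝒜 : ¬ 𝒜.LiesOverPrime p := not_liesOverPrime_of_not_overS hpS hS
  have hp0 : p ≠ 0 := (Fact.out : p.Prime).ne_zero
  -- the rational number
  obtain ⟨y, hy1, hyv⟩ : ∃ y : ℚˣ, (𝒜.valuation (α : Qbar) = 1 → y = 1) ∧
      𝒜.valuation (α : Qbar) = 𝒜.valuation (algebraMap ℚ Qbar (y : ℚ)) := by
    by_cases h1 : 𝒜.valuation (α : Qbar) = 1
    · exact ⟨1, fun _ => rfl, by simp [h1]⟩
    · obtain ⟨hn, F, hF, rfl⟩ := hU
      have : FiniteDimensional ℚ F := hF.1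
      have hαF : (α : Qbar) ∈ F := by
        rw [← InfiniteGalois.fixedField_fixingSubgroup F, IntermediateField.mem_fixedField_iff]
        exact hα
      obtain ⟨y, hy0, hy⟩ := exists_rat_valuation_eq hfin F hn hIU hαF α.ne_zero
      exact ⟨Units.mk0 y hy0, fun h => absurd h h1, by simpa using hy⟩
  refine ⟨y, hy1, fun i hi => ?_⟩
  set y' : Qbarˣ := Units.map (algebraMap ℚ Qbar : ℚ →* Qbar) y with hy'
  have hy'c : (y' : Qbar) = algebraMap ℚ Qbar (y : ℚ) := rfl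
  have hfixy : ∀ g : GQ, g (y' : Qbar) = y' := fun g => by rw [hy'c, g.commutes]
  set ε : Qbarˣ := α / y' with hε
  have hεc : (ε : Qbar) = (α : Qbar) / y' := by rw [hε, Units.val_div_eq_div_val]
  have hfixε : ∀ g ∈ Ine 𝒜, g (ε : Qbar) = ε := fun g hg => by
    rw [hεc, map_div₀, hfixy, hα g (hIU hg)]
  have hεv : 𝒜.valuation (ε : Qbar) = 1 := by
    rw [hεc, map_div₀, hyv, ← hy'c]
    exact div_self ((Valuation.ne_zero_iff _).mpr y'.ne_zero)
  have hsum : Additive.ofMul α = Additive.ofMul y' + Additive.ofMul ε := by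
    rw [← ofMul_mul, hε, mul_div_cancel]
  have hadd := kum_one_add K hI1 (b := Additive.ofMul y') (b' := Additive.ofMul ε)
    (fun w _ => (multRep_eq_iff w y').mpr (hfixy w))
    (fun w hw => (multRep_eq_iff w ε).mpr (hfixε w hw)) i hi
  obtain ⟨β, hβ⟩ := IsAlgClosed.exists_pow_nat_eq (ε : Qbar) (Nat.pos_of_ne_zero hp0)
  have hzero : K.kum (Additive.ofMul ε) 1 i = 0 := by
    rw [kum_one_eq_zero_iff K (hI1 hi) (hfixε i hi) hβ]
    refine apply_eq_of_mem_Ine_of_pow_unit hp𝒜 hi ?_ ?_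
    · rw [hβ, hεv]
    · rw [hβ, hfixε i hi]
  rw [hsum, hadd, hzero, add_zero]

/-- **Totality of Koch's relation.**
`z = d1 ν` (Step 1).  `exists_level_data` (`L = LS S`, `L' = Lall`, `htriv` = `cycRep_apply_of_mem_G1`) gives
`U ∈ LS S`, `U ≤ Vof N`, `f ∈ Z1 Lall U cyc` with `f 1 u = ν 1 u - ν 1 1`.  `K.exists_kum` gives `α` fixed by `U` with
`f - K.kum α ∈ B1`, so `f 1 u = K.kum α 1 u` on `U` (`eq_kum_one_of_sub_mem_B1`).  For `v ∉ SN N S` let `y v` be given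
by Step 2 at `𝒜 = plc v`, `b v = Units.map (algebraMap ℚ N) (y v)` (`emb (b v)` is the image of `y v`:
`IsScalarTower.algebraMap_apply ℚ N Qbar`), `δ v = ord v (b v) mod p`; finite support by
`finite_plc_not_unit` (`b v = 1` outside that set). -/
theorem exists_KRel (hHP : HPStatement p) (hNr : LocalNrStatement p) (hpS : pPrime p ∈ S)
    (hVS : (LS S).IsOpen (Vof N)) (hV1 : Vof N ≤ G1 p)
    {z : GQ → GQ → GQ → ZMod p} (hz : z ∈ ShaZ2 S (Vof N) (cycRep p)) :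
    ∃ δ : DivS N p (SN N S), KRel K S z δ := by
  classical
  obtain ⟨ν, hν, hd⟩ := mem_B2_Lall_of_mem_ShaZ2 hHP hNr hpS hVS hz
  have hzZ : z ∈ Z2 (LS S) (Vof N) (cycRep p) := hz.1
  obtain ⟨U, hU, hUV, ⟨f, hf, hfu⟩, -, -⟩ := exists_level_data (LS_le_Lall S) hVS
    (fun v hv a => cycRep_apply_of_mem_G1 (hV1 hv) a) hzZ hν hd
  obtain ⟨α, hα, hfα⟩ := K.exists_kum hf
  have hU1 : U ≤ G1 p := hUV.trans hV1
  have hfk := eq_kum_one_of_sub_mem_B1 K hU1 hfα
  have ha : ∀ u ∈ U, u ((Additive.toMul α : Qbarˣ) : Qbar) = (Additive.toMul α : Qbarˣ) :=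
    fun u hu => (multRep_eq_iff u (Additive.toMul α)).1 (hα u hu)
  have key : ∀ v : {v : Pl N // v ∉ SN N S}, ∃ y : ℚˣ,
      ((plc v.1).valuation ((Additive.toMul α : Qbarˣ) : Qbar) = 1 → y = 1) ∧
      ∀ i ∈ Ine (plc v.1), K.kum (Additive.ofMul (Additive.toMul α)) 1 i =
        K.kum (Additive.ofMul (Units.map (algebraMap ℚ Qbar : ℚ →* Qbar) y)) 1 i :=
    fun v => exists_rat_kum_eq K hpS hU hU1 ha (plc_isFin _) (not_overS_plc v.2)
  choose y hy1 hy2 using key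
  have hfin : (Function.support fun v : {v : Pl N // v ∉ SN N S} =>
      ((ord v.1 ((Units.map (algebraMap ℚ N : ℚ →* N) (y v) : Nˣ) : N) : ℤ) : ZMod p)).Finite := by
    refine Set.Finite.subset ((finite_plc_not_unit N
      (Additive.toMul α : Qbarˣ).ne_zero).preimage Subtype.val_injective.injOn) ?_
    intro v hv
    simp only [Function.mem_support] at hv
    simp only [Set.mem_preimage, Set.mem_ofPred_eq]
    intro h
    apply hv
    rw [hy1 v h, map_one, Units.val_one, ord_one, Int.cast_zero]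
  refine ⟨Finsupp.ofSupportFinite _ hfin, ν, hν, hd, fun v =>
    ⟨Units.map (algebraMap ℚ N : ℚ →* N) (y v), rfl, fun i hi => ?_⟩⟩
  have hiU : i ∈ U := Ine_le_of_mem_LS hU (plc_isFin _) (not_overS_plc v.2) hi
  have hemb : emb (Units.map (algebraMap ℚ N : ℚ →* N) (y v)) =
      Additive.ofMul (Units.map (algebraMap ℚ Qbar : ℚ →* Qbar) (y v)) := by
    unfold emb
    congr 1
    apply Units.ext
    exact (IsScalarTower.algebraMap_apply ℚ N Qbar _).symm
  rw [← hfu i hiU, hfk i hiU, hemb]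
  exact hy2 v i hi

end Fermat.Agent.PT.Koch

end
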