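/-
S55 block K, (FC1) assembly: `Ш²_S(N, μ_p)` injects into `Cl_S(N)/p`.
-/
import Fermat.Agent.PT.Koch.RelTotal
import Fermat.Agent.PT.Koch.RelInj
import Fermat.Agent.PT.Arith.ClCountA

set_option autoImplicit false

open NumberField IsDedekindDomain Fermat.Agent.CFT Fermat.Agent.PT.Arith ExtCitation

noncomputable section

namespace Fermat.Agent.PT.Koch

variable {N : Type*} [Field N] [NumberField N] [Algebra N Qbar]
variable {p : ℕ} [Fact p.Prime] {ι : ZMod p →+ Additive Qbarˣ}
  (K : KummerSetup Lall p multRep (cycRep p) ι) {S : Finset Nat.Primes}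

include K in
/-- **(FC1), Koch.** -/
theorem card_Sha2_le (hHP : HPStatement p) (hNr : LocalNrStatement p) (hpS : pPrime p ∈ S)
    (hVS : (LS S).IsOpen (Vof N)) (hV1 : Vof N ≤ G1 p) :
    Finite (Sha2 S (Vof N) (cycRep p)) ∧
      Nat.card (Sha2 S (Vof N) (cycRep p)) ≤ Nat.card (ClModP N p (SN N S)) := by
  classical
  obtain ⟨ζ, hζ⟩ := exists_zeta (N := N) K hV1
  have hfinS : Finite (SN N S) := (finite_SN (N := N) (S := S)).to_subtype
  have hfin : Finite (ClModP N p (SN N S)) := finite_ClModP p (SN N S)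
  -- choice of a divisor for every class
  have hex : ∀ m : Sha2 S (Vof N) (cycRep p), ∃ δ : DivS N p (SN N S),
      KRel K S ((Quotient.out m : ShaZ2 S (Vof N) (cycRep p)) : GQ → GQ → GQ → ZMod p) δ :=
    fun m => exists_KRel K hHP hNr hpS hVS hV1 (Quotient.out m).2
  choose D hD using hex
  let φ : Sha2 S (Vof N) (cycRep p) → ClModP N p (SN N S) := fun m => QuotientAddGroup.mk (D m)
  have hinj : Function.Injective φ := by
    intro m m' hmm
    have h1 : D m - D m' ∈ (divS (M := N) p (SN N S)).range := by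
      have := (QuotientAddGroup.eq (s := (divS (M := N) p (SN N S)).range)).mp hmm.symm
      rwa [neg_add_eq_sub] at this
    have h2 := (hD m).sub K hVS hV1 (hD m')
    have h3 := h2.sub K hVS hV1 (KRel_zero_of_mem_range K h1)
    rw [sub_zero, sub_self] at h3
    have hz : ((Quotient.out m : ShaZ2 S (Vof N) (cycRep p)) : GQ → GQ → GQ → ZMod p) -
        ((Quotient.out m' : ShaZ2 S (Vof N) (cycRep p)) : GQ → GQ → GQ → ZMod p) ∈
          Z2 (LS S) (Vof N) (cycRep p) :=
      Submodule.sub_mem _ (Quotient.out m).2.1 (Quotient.out m').2.1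
    have h4 := mem_B2_of_KRel_zero K hζ hpS hVS hV1 hz h3
    have h5 : (Submodule.Quotient.mk (Quotient.out m) : Sha2 S (Vof N) (cycRep p)) =
        Submodule.Quotient.mk (Quotient.out m') := by
      rw [Submodule.Quotient.eq]
      exact h4
    have e1 : (Submodule.Quotient.mk (Quotient.out m) : Sha2 S (Vof N) (cycRep p)) = m :=
      Quotient.out_eq m
    have e2 : (Submodule.Quotient.mk (Quotient.out m') : Sha2 S (Vof N) (cycRep p)) = m' :=
      Quotient.out_eq m'
    rw [← e1, ← e2, h5]
  exact ⟨Finite.of_injective φ hinj, Nat.card_le_card_of_injective φ hinj⟩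

end Fermat.Agent.PT.Koch

end
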