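/-
S55 block K, leaf `Sel`: Kummer description of the local and global conditions:
`S`-smooth ⇔ `x ∈ Σ_S`;  locally trivial at `𝒜` ⇔ `x ∈ LP`;  trivial ⇔ `x` is a `p`-th power.
-/
import Fermat.Agent.PT.Koch.RelInj
import Fermat.Agent.PT.Hens.LPBridge

set_option autoImplicit false

open NumberField IsDedekindDomain Fermat.Agent.CFT Fermat.Agent.PT.Arith ExtCitation

noncomputable section

namespace Fermat.Agent.PT.Koch

variable {N : Type*} [Field N] [NumberField N] [Algebra N Qbar]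
variable {p : ℕ} [Fact p.Prime] {ι : ZMod p →+ Additive Qbarˣ}
  (K : KummerSetup Lall p multRep (cycRep p) ι) {S : Finset Nat.Primes}

/-- `f = K.kum (emb x) ∈ Z1 Lall (Vof N) cyc`.  `W = {v ∈ Vof N | f 1 v = 0}` is a subgroup (`one_mul_of_le_G1`),
`Lall`-open (contains `U₀ ⊓ U₁`, `U₀ ≤ Vof N` a level, `U₁` a level of `f`), contains `Ine ℬ` for every finite `ℬ` not
over `S` (`Ine_le_of_isOpen_LS`, `dvd_ord_iff_kum`, `mem_SigS_iff`, `plOf_mem_SN_iff`), so it is `(LS S)`-open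
(`isOpen_LS_of_inertia`); conclude by `mem_Z1_of_vanish`. -/
theorem kum_mem_Z1_LS {ζ : N} (hζ : IsPrimitiveRoot ζ p) (hpS : pPrime p ∈ S)
    (hVS : (LS S).IsOpen (Vof N)) (hV1 : Vof N ≤ G1 p) {x : Nˣ} (hx : x ∈ SigS N p (SN N S)) :
    K.kum (emb x) ∈ Z1 (LS S) (Vof N) (cycRep p) := by
  have hf : K.kum (emb x) ∈ Z1 Lall (Vof N) (cycRep p) :=
    K.kum_mem_Z1 (fun v hv => multRep_emb hv x)
  have htriv : ∀ v ∈ Vof N, ∀ a, cycRep p v a = a :=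
    fun v hv a => cycRep_apply_of_mem_G1 (hV1 hv) a
  have hadd := one_mul_of_le_G1 hV1 hf
  have h11 := one_one_eq_zero hf
  let W : Subgroup GQ :=
    { carrier := {v | v ∈ Vof N ∧ K.kum (emb x) 1 v = 0}
      one_mem' := ⟨(Vof N).one_mem, h11⟩
      mul_mem' := by
        rintro a b ⟨ha, ha'⟩ ⟨hb, hb'⟩
        exact ⟨(Vof N).mul_mem ha hb, by rw [hadd a ha b, ha', hb', add_zero]⟩
      inv_mem' := by
        rintro a ⟨ha, ha'⟩
        refine ⟨(Vof N).inv_mem ha, ?_⟩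
        have := hadd a ha a⁻¹
        rw [mul_inv_cancel, h11, ha', zero_add] at this
        exact this.symm }
  have hWopen : Lall.IsOpen W := by
    obtain ⟨U₀, hU₀, hU₀V⟩ := isOpen_Lall_of_isOpen_LS hVS
    obtain ⟨⟨-, U₁, hU₁, hs⟩, -⟩ := hf
    obtain ⟨W0, hW0, h1, h2⟩ := Lall.directed' U₀ hU₀ U₁ hU₁
    refine ⟨W0, hW0, fun u hu => ⟨hU₀V (h1 hu), ?_⟩⟩
    have := hs 1 1 1 U₁.one_mem u (h2 hu)
    rw [mul_one, one_mul] at this
    rw [this, h11]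
  have hWS : (LS S).IsOpen W := by
    refine isOpen_LS_of_inertia hWopen fun ℬ hfin hS i hi => ?_
    have hiV : i ∈ Vof N := Ine_le_of_isOpen_LS hVS hfin hS hi
    refine ⟨hiV, ?_⟩
    have hdvd : (p : ℤ) ∣ ord (plOf N ℬ hfin) (x : N) :=
      (mem_SigS_iff p _ x).1 hx (plOf N ℬ hfin) (fun h' => hS ((plOf_mem_SN_iff hfin).1 h'))
    exact (dvd_ord_iff_kum K hζ hV1 hfin (not_liesOverPrime_of_not_overS hpS hS) x).1 hdvd i
      ⟨hiV, hi⟩
  obtain ⟨U'', hU'', hle⟩ := hWS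
  exact mem_Z1_of_vanish hVS htriv hf hU'' fun u hu => (hle hu).2

/-- For `v ∉ SN N S`, `𝒜 = plc v`, `g ∈ Vof N ⊓ Ine 𝒜`: `K.kum (emb x) 1 g = f 1 g` (`eq_kum_one_of_sub_mem_B1`)
`= f 1 (1 * g) = f 1 1 = 0` as `g` lies in every level of `LS S` (`Ine_le_of_mem_LS`).  Then `dvd_ord_iff_kum`,
`plOf_plc`. -/
theorem mem_SigS_of_kum {ζ : N} (hζ : IsPrimitiveRoot ζ p) (hpS : pPrime p ∈ S)
    (hV1 : Vof N ≤ G1 p) {x : Nˣ} {f : GQ → GQ → ZMod p} (hf : f ∈ Z1 (LS S) (Vof N) (cycRep p))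
    (h : f - K.kum (emb x) ∈ B1 Lall (Vof N) (cycRep p)) : x ∈ SigS N p (SN N S) := by
  rw [mem_SigS_iff]
  intro v hv
  have hS := not_overS_plc hv
  have key := (dvd_ord_iff_kum K hζ hV1 (plc_isFin v)
    (not_liesOverPrime_of_not_overS hpS hS) x).2 (by
      intro g hg
      rw [← eq_kum_one_of_sub_mem_B1 K hV1 h g hg.1]
      have h11 := one_one_eq_zero hf
      obtain ⟨⟨-, U, hU, hs⟩, -⟩ := hf
      have hgU : g ∈ U := Ine_le_of_mem_LS hU (plc_isFin v) hS hg.2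
      have := hs 1 1 1 U.one_mem g hgU
      rw [mul_one, one_mul] at this
      rw [this, h11])
  rwa [plOf_plc] at key

namespace Sel

omit [NumberField N] in
/-- `p • c = emb x ↔ c ^ p = x`. -/
theorem smul_ofMul_eq_emb_iff (c : Qbarˣ) (x : Nˣ) :
    p • Additive.ofMul c = emb x ↔ (c : Qbar) ^ p = algebraMap N Qbar x := by
  rw [← ofMul_pow]
  constructor
  · intro h
    have h1 := congrArg (fun z : Additive Qbarˣ => ((Additive.toMul z : Qbarˣ) : Qbar)) h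
    simpa [coe_toMul_emb] using h1
  · intro h
    apply Additive.toMul.injective
    ext
    rw [coe_toMul_emb, toMul_ofMul, Units.val_pow_eq_pow_val]
    exact h

/-- `S`-smooth cocycles are smooth. -/
theorem Z1_LS_le_Lall {W : Subgroup GQ} {f : GQ → GQ → ZMod p}
    (hf : f ∈ Z1 (LS S) W (cycRep p)) : f ∈ Z1 Lall W (cycRep p) := by
  obtain ⟨⟨he, U, hU, hs⟩, hd⟩ := hf
  exact ⟨⟨he, U, LS_le_Lall S hU, hs⟩, hd⟩

end Sel

/-- (`K.kum_mem_B1_iff`, `mem_kh`, `mem_LP_plOf_iff`.) -/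
theorem kum_mem_B1_local_iff {ζ : N} (hζ : IsPrimitiveRoot ζ p) {𝒜 : Place} (h : 𝒜.IsFin) (x : Nˣ) :
    K.kum (emb x) ∈ B1 Lall (Vof N ⊓ Dec 𝒜) (cycRep p) ↔ x ∈ LP p ζ (plOf N 𝒜 h) := by
  have hp : p ≠ 0 := (Fact.out : p.Prime).ne_zero
  have hb : ∀ v ∈ Vof N ⊓ Dec 𝒜, multRep v (emb x) = emb x := fun v hv => multRep_emb hv.1 x
  rw [K.kum_mem_B1_iff hb, mem_LP_plOf_iff h hζ]
  constructor
  · rintro ⟨c, hc, hpc⟩
    refine ⟨((Additive.toMul c : Qbarˣ) : Qbar), ?_, ?_⟩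
    · rw [mem_kh]
      intro g hg
      exact (multRep_eq_iff g (Additive.toMul c)).1 (hc g hg)
    · exact (Sel.smul_ofMul_eq_emb_iff (Additive.toMul c) x).1 hpc
  · rintro ⟨y, hy, hyp⟩
    have hy0 : y ≠ 0 := by
      rintro rfl
      rw [zero_pow hp] at hyp
      exact (map_ne_zero (algebraMap N Qbar)).mpr x.ne_zero hyp.symm
    refine ⟨Additive.ofMul (Units.mk0 y hy0), ?_, ?_⟩
    · intro g hg
      rw [multRep_eq_iff]
      exact (mem_kh.mp hy) g hg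
    · exact (Sel.smul_ofMul_eq_emb_iff (Units.mk0 y hy0) x).2 hyp

/-- (`K.exists_kum`, `mem_kh`, `exists_eq_mul_pow_of_mem_kh`, `kum_sub_mem_B1_of_eq_add_smul`.) -/
theorem exists_kum_local {ζ : N} (hζ : IsPrimitiveRoot ζ p) (hV1 : Vof N ≤ G1 p) {𝒜 : Place}
    (h : 𝒜.IsFin) {f : GQ → GQ → ZMod p} (hf : f ∈ Z1 Lall (Vof N ⊓ Dec 𝒜) (cycRep p)) :
    ∃ x : Nˣ, f - K.kum (emb x) ∈ B1 Lall (Vof N ⊓ Dec 𝒜) (cycRep p) := by
  have hp : p ≠ 0 := (Fact.out : p.Prime).ne_zero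
  have hW : Vof N ⊓ Dec 𝒜 ≤ G1 p := inf_le_left.trans hV1
  obtain ⟨b, hb, hfb⟩ := K.exists_kum hf
  set b' : Qbarˣ := Additive.toMul b with hb'
  have hbk : (b' : Qbar) ∈ kh N 𝒜 := by
    rw [mem_kh]
    intro g hg
    exact (multRep_eq_iff g b').1 (hb g hg)
  obtain ⟨x, y, hy, hxy⟩ := exists_eq_mul_pow_of_mem_kh h hζ hbk b'.ne_zero
  have hy0 : y ≠ 0 := by
    rintro rfl
    rw [zero_pow hp, mul_zero] at hxy
    exact b'.ne_zero hxy
  have hc : ∀ w ∈ Vof N ⊓ Dec 𝒜, multRep w (Additive.ofMul (Units.mk0 y hy0))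
      = Additive.ofMul (Units.mk0 y hy0) := by
    intro g hg
    rw [multRep_eq_iff]
    exact (mem_kh.mp hy) g hg
  have hbe : b = emb x + p • Additive.ofMul (Units.mk0 y hy0) := by
    apply Additive.toMul.injective
    ext
    rw [toMul_add, toMul_nsmul, toMul_ofMul, Units.val_mul, coe_toMul_emb,
      Units.val_pow_eq_pow_val, Units.val_mk0]
    exact hxy
  have h1 := kum_sub_mem_B1_of_eq_add_smul K hW (fun w hw => multRep_emb hw.1 x) hc hbe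
  refine ⟨x, ?_⟩
  have h2 := add_mem hfb h1
  rwa [sub_add_sub_cancel] at h2

/-- (`K.exists_kum`, `exists_emb_eq`.) -/
theorem exists_kum_global {f : GQ → GQ → ZMod p} (hf : f ∈ Z1 Lall (Vof N) (cycRep p)) :
    ∃ x : Nˣ, f - K.kum (emb x) ∈ B1 Lall (Vof N) (cycRep p) := by
  obtain ⟨b, hb, hfb⟩ := K.exists_kum hf
  obtain ⟨x, rfl⟩ := exists_emb_eq hb
  exact ⟨x, hfb⟩

/-- (`K.kum_mem_B1_iff`, `exists_emb_eq`, `emb_pow`, `emb_injective`.) -/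
theorem kum_mem_B1_global_iff (x : Nˣ) :
    K.kum (emb x) ∈ B1 Lall (Vof N) (cycRep p) ↔ x ∈ PW p Nˣ := by
  rw [K.kum_mem_B1_iff (fun g hg => multRep_emb hg x)]
  constructor
  · rintro ⟨c, hc, hpc⟩
    obtain ⟨y, rfl⟩ := exists_emb_eq hc
    rw [← emb_pow] at hpc
    exact ⟨y, emb_injective hpc⟩
  · rintro ⟨y, hy⟩
    refine ⟨emb y, fun g hg => multRep_emb hg y, ?_⟩
    rw [← emb_pow, ← hy]
    rfl

omit [NumberField N] in
/-- for `S`-smooth cocycles, coboundary for `LS S` = coboundary for `Lall` (`mem_B1_iff_of_le_G1` twice). -/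
theorem mem_B1_LS_iff (hV1 : Vof N ≤ G1 p) {f : GQ → GQ → ZMod p}
    (hf : f ∈ Z1 (LS S) (Vof N) (cycRep p)) :
    f ∈ B1 (LS S) (Vof N) (cycRep p) ↔ f ∈ B1 Lall (Vof N) (cycRep p) := by
  rw [mem_B1_iff_of_le_G1 hV1 hf, mem_B1_iff_of_le_G1 hV1 (Sel.Z1_LS_le_Lall hf)]

end Fermat.Agent.PT.Koch

end
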