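/-
S55 block K, leaf `PairLocal`: the pairings `pair K W lam x z = lam [κ(z) ∪ χ_x]` on `Nˣ`.
-/
import Fermat.Agent.PT.Koch.Sel

set_option autoImplicit false

open NumberField IsDedekindDomain Fermat.Agent.CFT Fermat.Agent.PT.Arith ExtCitation

noncomputable section

namespace Fermat.Agent.PT.Koch

variable {p : ℕ} [Fact p.Prime]

section ev

variable {W : Subgroup GQ} (lam : H2 Lall W (cycRep p) →ₗ[ZMod p] ZMod p)

theorem ev_of_mem {z : GQ → GQ → GQ → ZMod p} (hz : z ∈ Z2 Lall W (cycRep p)) :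
    ev W lam z = lam (H2.mk Lall W (cycRep p) ⟨z, hz⟩) := by
  unfold ev
  rw [dif_pos hz]

theorem ev_add {z z' : GQ → GQ → GQ → ZMod p} (hz : z ∈ Z2 Lall W (cycRep p))
    (hz' : z' ∈ Z2 Lall W (cycRep p)) : ev W lam (z + z') = ev W lam z + ev W lam z' := by
  rw [ev_of_mem lam hz, ev_of_mem lam hz', ev_of_mem lam (add_mem hz hz'), ← map_add, ← map_add]
  rfl

theorem ev_eq_zero_of_mem_B2 {z : GQ → GQ → GQ → ZMod p} (hz : z ∈ B2 Lall W (cycRep p)) :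
    ev W lam z = 0 := by
  rw [ev_of_mem lam (B2_le_Z2 hz), (H2.mk_eq_zero_iff _ _ _ _).2 hz, map_zero]

theorem ev_congr {z z' : GQ → GQ → GQ → ZMod p} (hz : z ∈ Z2 Lall W (cycRep p))
    (hz' : z' ∈ Z2 Lall W (cycRep p)) (h : z - z' ∈ B2 Lall W (cycRep p)) :
    ev W lam z = ev W lam z' := by
  have h1 : z = z' + (z - z') := by abel
  rw [h1, ev_add lam hz' (B2_le_Z2 h), ev_eq_zero_of_mem_B2 lam h, add_zero]

theorem mem_B2_of_ev_eq_zero (hinj : Function.Injective lam) {z : GQ → GQ → GQ → ZMod p}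
    (hz : z ∈ Z2 Lall W (cycRep p)) (h : ev W lam z = 0) : z ∈ B2 Lall W (cycRep p) := by
  rw [ev_of_mem lam hz, ← map_zero lam] at h
  exact (H2.mk_eq_zero_iff _ _ _ _).1 (hinj h)

end ev

/-- a nonzero linear form on a space with `p` elements is injective. -/
theorem lam_injective (hLC : LocalCardStatement p) {V : Subgroup GQ} (hV : Lall.IsOpen V) {𝒜 : Place}
    (h : 𝒜.IsFin) (lam : H2 Lall (V ⊓ Dec 𝒜) (cycRep p) →ₗ[ZMod p] ZMod p) (hlam : lam ≠ 0) :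
    Function.Injective lam := by
  have hp : p.Prime := Fact.out
  have hcard := hLC V hV 𝒜 h
  haveI : Finite (H2 Lall (V ⊓ Dec 𝒜) (cycRep p)) :=
    Nat.finite_of_card_ne_zero (by rw [hcard]; exact hp.ne_zero)
  have hdvd := (LinearMap.ker lam).toAddSubgroup.card_addSubgroup_dvd_card
  rw [hcard] at hdvd
  rw [← LinearMap.ker_eq_bot]
  rcases (Nat.dvd_prime hp).1 hdvd with h1 | h1
  · have h2 : (LinearMap.ker lam).toAddSubgroup = ⊥ := AddSubgroup.card_eq_one.1 h1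
    rw [eq_bot_iff]
    intro x hx
    have hx' : x ∈ (LinearMap.ker lam).toAddSubgroup := hx
    rw [h2] at hx'
    exact hx'
  · exfalso
    have h2 : (LinearMap.ker lam).toAddSubgroup = ⊤ :=
      AddSubgroup.eq_top_of_card_eq _ (by rw [h1, hcard])
    apply hlam
    apply LinearMap.ext
    intro x
    have hx : x ∈ (LinearMap.ker lam).toAddSubgroup := by rw [h2]; exact AddSubgroup.mem_top x
    exact hx

variable {N : Type*} [Field N] [NumberField N] [Algebra N Qbar]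
variable {ι : ZMod p →+ Additive Qbarˣ} (K : KummerSetup Lall p multRep (cycRep p) ι)

section bilinear

variable {W : Subgroup GQ} (lam : H2 Lall W (cycRep p) →ₗ[ZMod p] ZMod p)

omit [NumberField N] in
/-- `κ(z) ∪ χ_x` is a cocycle (`cupT_mem_Z2`, `K.kum_mem_Z1`, `multRep_emb`, `Z1_cyc_eq_triv`). -/
theorem cupT_kum_mem_Z2 (hW : W ≤ Vof N) (hV1 : Vof N ≤ G1 p) (x z : Nˣ) :
    cupT (K.kum (emb z)) (K.kum (emb x)) ∈ Z2 Lall W (cycRep p) := by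
  refine cupT_mem_Z2 (K.kum_mem_Z1 fun v hv => multRep_emb (hW hv) z) ?_
  rw [← Z1_cyc_eq_triv (hW.trans hV1)]
  exact K.kum_mem_Z1 fun v hv => multRep_emb (hW hv) x

omit [NumberField N] in
/-- (`emb_mul`, `K.kum_add`, `B1_cyc_eq_triv`, `cupT_add_right`, `cupT_mem_B2_right`, `ev_add`, `ev_congr`.) -/
theorem pair_mul_left (hW : W ≤ Vof N) (hV1 : Vof N ≤ G1 p) (x y z : Nˣ) :
    pair K W lam (x * y) z = pair K W lam x z + pair K W lam y z := by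
  have hfix : ∀ a : Nˣ, ∀ v ∈ W, multRep v (emb a) = emb a := fun a v hv => multRep_emb (hW hv) a
  have hδ := K.kum_add (V := W) (hfix x) (hfix y)
  have hfz : K.kum (emb z) ∈ Z1 Lall W (cycRep p) := K.kum_mem_Z1 (hfix z)
  rw [B1_cyc_eq_triv (hW.trans hV1)] at hδ
  have hB := cupT_mem_B2_right hfz hδ
  have hC : K.kum (emb x + emb y) = K.kum (emb x) + K.kum (emb y) +
      (K.kum (emb x + emb y) - (K.kum (emb x) + K.kum (emb y))) := by abel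
  unfold pair
  rw [emb_mul, hC, cupT_add_right, cupT_add_right,
    ev_add lam (add_mem (cupT_kum_mem_Z2 K hW hV1 x z) (cupT_kum_mem_Z2 K hW hV1 y z))
      (B2_le_Z2 hB),
    ev_add lam (cupT_kum_mem_Z2 K hW hV1 x z) (cupT_kum_mem_Z2 K hW hV1 y z),
    ev_eq_zero_of_mem_B2 lam hB, add_zero]

omit [NumberField N] in
/-- (`emb_mul`, `K.kum_add`, `cupT_add_left`, `cupT_mem_B2_left`, `ev_add`, `ev_congr`.) -/
theorem pair_mul_right (hW : W ≤ Vof N) (hV1 : Vof N ≤ G1 p) (x y z : Nˣ) :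
    pair K W lam x (y * z) = pair K W lam x y + pair K W lam x z := by
  have hfix : ∀ a : Nˣ, ∀ v ∈ W, multRep v (emb a) = emb a := fun a v hv => multRep_emb (hW hv) a
  have hδ := K.kum_add (V := W) (hfix y) (hfix z)
  have hfx : K.kum (emb x) ∈ Z1 Lall W (trivZ p GQ) := by
    rw [← Z1_cyc_eq_triv (hW.trans hV1)]
    exact K.kum_mem_Z1 (hfix x)
  have hB := cupT_mem_B2_left hδ hfx
  have hC : K.kum (emb y + emb z) = K.kum (emb y) + K.kum (emb z) +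
      (K.kum (emb y + emb z) - (K.kum (emb y) + K.kum (emb z))) := by abel
  unfold pair
  rw [emb_mul, hC, cupT_add_left, cupT_add_left,
    ev_add lam (add_mem (cupT_kum_mem_Z2 K hW hV1 x y) (cupT_kum_mem_Z2 K hW hV1 x z))
      (B2_le_Z2 hB),
    ev_add lam (cupT_kum_mem_Z2 K hW hV1 x y) (cupT_kum_mem_Z2 K hW hV1 x z),
    ev_eq_zero_of_mem_B2 lam hB, add_zero]

end bilinear

section local_

variable {𝒜 : Place} (h : 𝒜.IsFin) (lam : H2 Lall (Vof N ⊓ Dec 𝒜) (cycRep p) →ₗ[ZMod p] ZMod p)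
  {ζ : N}

/-- (`kum_mem_B1_local_iff`, `B1_cyc_eq_triv`, `cupT_mem_B2_right`, `ev_eq_zero_of_mem_B2`.) -/
theorem pair_eq_zero_of_left_mem_LP (hζ : IsPrimitiveRoot ζ p) (hV1 : Vof N ≤ G1 p) {x : Nˣ}
    (hx : x ∈ LP p ζ (plOf N 𝒜 h)) (z : Nˣ) : pair K (Vof N ⊓ Dec 𝒜) lam x z = 0 := by
  have hW : Vof N ⊓ Dec 𝒜 ≤ G1 p := inf_le_left.trans hV1
  have h1 : K.kum (emb x) ∈ B1 Lall (Vof N ⊓ Dec 𝒜) (cycRep p) :=
    (kum_mem_B1_local_iff K hζ h x).2 hx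
  rw [B1_cyc_eq_triv hW] at h1
  exact ev_eq_zero_of_mem_B2 lam
    (cupT_mem_B2_right (K.kum_mem_Z1 fun v hv => multRep_emb hv.1 z) h1)

/-- (`kum_mem_B1_local_iff`, `cupT_mem_B2_left`, `ev_eq_zero_of_mem_B2`.) -/
theorem pair_eq_zero_of_right_mem_LP (hζ : IsPrimitiveRoot ζ p) (hV1 : Vof N ≤ G1 p) (x : Nˣ)
    {z : Nˣ} (hz : z ∈ LP p ζ (plOf N 𝒜 h)) : pair K (Vof N ⊓ Dec 𝒜) lam x z = 0 := by
  have hW : Vof N ⊓ Dec 𝒜 ≤ G1 p := inf_le_left.trans hV1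
  have h1 : K.kum (emb z) ∈ B1 Lall (Vof N ⊓ Dec 𝒜) (cycRep p) :=
    (kum_mem_B1_local_iff K hζ h z).2 hz
  have h2 : K.kum (emb x) ∈ Z1 Lall (Vof N ⊓ Dec 𝒜) (trivZ p GQ) := by
    rw [← Z1_cyc_eq_triv hW]
    exact K.kum_mem_Z1 fun v hv => multRep_emb hv.1 x
  exact ev_eq_zero_of_mem_B2 lam (cupT_mem_B2_left h1 h2)

/-- **Non degeneracy.**  `χ = K.kum (emb x) ∈ Z1 Lall W (trivZ p GQ)`.  For every `f ∈ Z1 Lall W cyc` there is `z` with
`f - κ(z) ∈ B1` (`exists_kum_local`), so `cupT f χ ∈ B2` (`cupT_sub_left`, `cupT_mem_B2_left`,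
`mem_B2_of_ev_eq_zero`).  `hLP` gives `χ ∈ B1 Lall W (trivZ p GQ) = B1 Lall W cyc`; `kum_mem_B1_local_iff`. -/
theorem mem_LP_of_pair_eq_zero (hLP : LocalPairingStatement p) (hζ : IsPrimitiveRoot ζ p)
    (hVo : Lall.IsOpen (Vof N)) (hV1 : Vof N ≤ G1 p) (hinj : Function.Injective lam) {x : Nˣ}
    (hx : ∀ z, pair K (Vof N ⊓ Dec 𝒜) lam x z = 0) : x ∈ LP p ζ (plOf N 𝒜 h) := by
  have hW : Vof N ⊓ Dec 𝒜 ≤ G1 p := inf_le_left.trans hV1
  have hχ : K.kum (emb x) ∈ Z1 Lall (Vof N ⊓ Dec 𝒜) (trivZ p GQ) := by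
    rw [← Z1_cyc_eq_triv hW]
    exact K.kum_mem_Z1 fun v hv => multRep_emb hv.1 x
  have h3 := hLP (Vof N) hVo hV1 𝒜 h (K.kum (emb x)) hχ (fun f hf => by
    obtain ⟨z, hz⟩ := exists_kum_local K hζ hV1 h hf
    have h4 : cupT (f - K.kum (emb z)) (K.kum (emb x)) ∈ B2 Lall (Vof N ⊓ Dec 𝒜) (cycRep p) :=
      cupT_mem_B2_left hz hχ
    rw [cupT_sub_left] at h4
    have h5 : cupT (K.kum (emb z)) (K.kum (emb x)) ∈ B2 Lall (Vof N ⊓ Dec 𝒜) (cycRep p) :=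
      mem_B2_of_ev_eq_zero lam hinj
        (cupT_mem_Z2 (K.kum_mem_Z1 fun v hv => multRep_emb hv.1 z) hχ) (hx z)
    have h6 := add_mem h4 h5
    rwa [sub_add_cancel] at h6)
  rw [← B1_cyc_eq_triv hW] at h3
  exact (kum_mem_B1_local_iff K hζ h x).1 h3

end local_

end Fermat.Agent.PT.Koch

end
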