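/-
S55 block K, leaf `PairGlobal`: reciprocity for the pairings on `Σ_S`.
-/
import Fermat.Agent.PT.Koch.PairLocal

set_option autoImplicit false

open NumberField IsDedekindDomain Fermat.Agent.CFT Fermat.Agent.PT.Arith ExtCitation

noncomputable section

namespace Fermat.Agent.PT.Koch

variable {N : Type*} [Field N] [NumberField N] [Algebra N Qbar]
variable {p : ℕ} [Fact p.Prime] {ι : ZMod p →+ Additive Qbarˣ}
  (K : KummerSetup Lall p multRep (cycRep p) ι) {S : Finset Nat.Primes}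

/-- `c = cupT (κ z) (κ x) ∈ Z2 (LS S) (Vof N) cyc` (`kum_mem_Z1_LS`, `Z1_cyc_eq_triv`, `cupT_mem_Z2` with `L = LS S`).
`loc2 S V cyc 𝒜 (H2.mk _ _ _ ⟨c, _⟩) = H2.mk _ _ _ ⟨c, _⟩` (`loc2 = (inclC ..).H2`, `CMap.H2_mk`, `T2 = id`), so
`pair K _ (lam i) x z = lam i (loc2 .. (𝒜 i) [c])` (`ev_of_mem`); apply `hrec` to `[c]`. -/
theorem sum_pair_eq_zero {ζ : N} (hζ : IsPrimitiveRoot ζ p) (hpS : pPrime p ∈ S)
    (hVS : (LS S).IsOpen (Vof N)) (hV1 : Vof N ≤ G1 p) {J : Type} [Fintype J] (𝒜 : J → Place)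
    (lam : ∀ i, H2 Lall (Vof N ⊓ Dec (𝒜 i)) (cycRep p) →ₗ[ZMod p] ZMod p)
    (hrec : ∀ x : H2 (LS S) (Vof N) (cycRep p),
      ∑ i, lam i (loc2 S (Vof N) (cycRep p) (𝒜 i) x) = 0)
    {x z : Nˣ} (hx : x ∈ SigS N p (SN N S)) (hz : z ∈ SigS N p (SN N S)) :
    ∑ i, pair K (Vof N ⊓ Dec (𝒜 i)) (lam i) x z = 0 := by
  have hzZ : K.kum (emb z) ∈ Z1 (LS S) (Vof N) (cycRep p) := kum_mem_Z1_LS K hζ hpS hVS hV1 hz
  have hxZ : K.kum (emb x) ∈ Z1 (LS S) (Vof N) (trivZ p GQ) := by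
    rw [← Z1_cyc_eq_triv hV1]
    exact kum_mem_Z1_LS K hζ hpS hVS hV1 hx
  have hc : cupT (K.kum (emb z)) (K.kum (emb x)) ∈ Z2 (LS S) (Vof N) (cycRep p) :=
    cupT_mem_Z2 hzZ hxZ
  rw [← hrec (H2.mk (LS S) (Vof N) (cycRep p) ⟨_, hc⟩)]
  refine Finset.sum_congr rfl fun i _ => ?_
  have hc' : cupT (K.kum (emb z)) (K.kum (emb x)) ∈ Z2 Lall (Vof N ⊓ Dec (𝒜 i)) (cycRep p) :=
    cupT_kum_mem_Z2 K inf_le_left hV1 x z
  unfold pair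
  rw [ev_of_mem (lam i) hc']
  rfl

end Fermat.Agent.PT.Koch

end
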