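/-
S55 block K, (FC2) assembly: `|Cl_S(N)/p| ≤ |V_S/p|` from the cohomological pairings
(arithmetic half: `PT/Arith/FC2.lean`, `card_ClModP_le`).
-/
import Fermat.Agent.PT.Koch.PairGlobal
import Fermat.Agent.PT.Arith.FC2

set_option autoImplicit false

open NumberField IsDedekindDomain Fermat.Agent.CFT Fermat.Agent.PT.Arith ExtCitation

noncomputable section

namespace Fermat.Agent.PT.Koch

variable {N : Type*} [Field N] [NumberField N] [Algebra N Qbar]
variable {p : ℕ} [Fact p.Prime] {ι : ZMod p →+ Additive Qbarˣ}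
  (K : KummerSetup Lall p multRep (cycRep p) ι) {S : Finset Nat.Primes}

include K in
/-- **(FC2).** -/
theorem card_ClModP_le_VS (hp2 : p ≠ 2) {ζ : N} (hζ : IsPrimitiveRoot ζ p) (hpS : pPrime p ∈ S)
    (hVS : (LS S).IsOpen (Vof N)) (hV1 : Vof N ≤ G1 p) (hLC : LocalCardStatement p)
    (hLP : LocalPairingStatement p) {J : Type} [Fintype J] (𝒜 : J → Place)
    (hsys : IsPlaceSystem S (Vof N) 𝒜)
    (lam : ∀ i, H2 Lall (Vof N ⊓ Dec (𝒜 i)) (cycRep p) →ₗ[ZMod p] ZMod p)
    (hlam : ∀ i, lam i ≠ 0)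
    (hrec : ∀ x : H2 (LS S) (Vof N) (cycRep p),
      ∑ i, lam i (loc2 S (Vof N) (cycRep p) (𝒜 i) x) = 0) :
    Nat.card (ClModP N p (SN N S)) ≤ (PW p Nˣ).relIndex (VS p ζ (SN N S)) := by
  classical
  have hVo : Lall.IsOpen (Vof N) := isOpen_Lall_of_isOpen_LS hVS
  have hfin : ∀ i, (𝒜 i).IsFin := fun i => isFin_of_overS (hsys.overS i)
  set w : J → Pl N := fun i => plOf N (𝒜 i) (hfin i) with hw
  have hwinj : Function.Injective w := placeSystem_injective hsys
  let B : Pl N → Nˣ → Nˣ → ZMod p := fun v x z =>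
    ∑ i, if w i = v then pair K (Vof N ⊓ Dec (𝒜 i)) (lam i) x z else 0
  have hBi : ∀ i x z, B (w i) x z = pair K (Vof N ⊓ Dec (𝒜 i)) (lam i) x z := by
    intro i x z
    simp only [B]
    rw [Finset.sum_eq_single i]
    · rw [if_pos rfl]
    · intro j _ hj
      rw [if_neg (fun h => hj (hwinj h))]
    · intro h
      exact absurd (Finset.mem_univ i) h
  have hsurj : ∀ v ∈ SN N S, ∃ i, w i = v := fun v hv => placeSystem_surj hsys hv
  refine card_ClModP_le p hp2 ζ hζ (SN N S) finite_SN (over_mem_SN hpS) B ?_ ?_ ?_ ?_ ?_ ?_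
  · intro v hv x y z
    obtain ⟨i, rfl⟩ := hsurj v hv
    rw [hBi, hBi, hBi]
    exact pair_mul_left K _ inf_le_left hV1 x y z
  · intro v hv x y z
    obtain ⟨i, rfl⟩ := hsurj v hv
    rw [hBi, hBi, hBi]
    exact pair_mul_right K _ inf_le_left hV1 x y z
  · intro v hv x hx z
    obtain ⟨i, rfl⟩ := hsurj v hv
    rw [hBi]
    exact pair_eq_zero_of_left_mem_LP K (hfin i) _ hζ hV1 hx z
  · intro v hv x z hz
    obtain ⟨i, rfl⟩ := hsurj v hv
    rw [hBi]
    exact pair_eq_zero_of_right_mem_LP K (hfin i) _ hζ hV1 x hz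
  · intro v hv x hx
    obtain ⟨i, rfl⟩ := hsurj v hv
    refine mem_LP_of_pair_eq_zero K (hfin i) (lam i) hLP hζ hVo hV1
      (lam_injective hLC hVo (hfin i) (lam i) (hlam i)) fun z => ?_
    rw [← hBi]
    exact hx z
  · intro x hx z hz
    simp only [B]
    rw [Finset.sum_comm]
    refine Eq.trans ?_ (sum_pair_eq_zero K hζ hpS hVS hV1 𝒜 lam hrec hx hz)
    refine Finset.sum_congr rfl fun i _ => ?_
    rw [Finset.sum_ite_eq, if_pos]
    exact (finite_SN (N := N) (S := S)).mem_toFinset.mpr (placeSystem_mem_SN hsys i)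

end Fermat.Agent.PT.Koch

end
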