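/-
S55 block K: the contract `LocalPairingStatement p` (a non trivial character of order `p` of a local field
`k_𝒜 ∋ μ_p` is detected by the cup product with `k_𝒜^×/p`) from
* the cyclic step (CS2) of block B  (`K.exists_norm_of_theta_mem_B2`),
* the norm bridge of block HENS     (`mem_norm_sup_LP_iff`, `split_plOf_iff`),
* the local first inequality of G-ARITH (`NL_ne_top`).
-/
import Fermat.Agent.PT.Koch.Sel
import Fermat.Agent.PT.Hens.NormBridge
import Fermat.Agent.PT.Arith.NLNeTop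
import Fermat.Agent.PT.B.Cyclic

set_option autoImplicit false

open NumberField IsDedekindDomain Fermat.Agent.CFT Fermat.Agent.PT.Arith ExtCitation

noncomputable section

namespace Fermat.Agent.PT.Koch

variable {N : Type*} [Field N] [NumberField N] [Algebra N Qbar]
variable {p : ℕ} [Fact p.Prime]

open Polynomial IntermediateField in
/-- The Kummer extension `N' = N(α) ⊆ Qbar`, `α ^ p = a ∉ N^{×p}`, `μ_p ⊆ N`.
`N' = IntermediateField.adjoin N {α}`; `X ^ p - C a` is irreducible (`X_pow_sub_C_irreducible_of_prime`), `N'` is its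
splitting field (roots `ζ ^ i α`); Mathlib `FieldTheory/KummerExtension`: `isGalois_of_isSplittingField_X_pow_sub_C`,
`finrank_of_isSplittingField_X_pow_sub_C`, or by hand (`IntermediateField.adjoin.finrank`, `minpoly`).
An element of `Vof N` fixing `α` fixes `N'` (`IntermediateField.adjoin_induction` / `AlgHom` ext on `adjoin`). -/
theorem exists_kummer_field {ζ : N} (hζ : IsPrimitiveRoot ζ p) {a : Nˣ} (ha : a ∉ PW p Nˣ) {α : Qbar}
    (hα : α ^ p = algebraMap N Qbar a) :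
    ∃ N' : IntermediateField N Qbar, FiniteDimensional N N' ∧ IsGalois N N' ∧
      Module.finrank N N' = p ∧ ∀ g ∈ Vof N, (g ∈ Vof N' ↔ g α = α) := by
  have hp : p.Prime := Fact.out
  have : NeZero p := ⟨hp.ne_zero⟩
  have hu : ∀ b : N, b ^ p ≠ (a : N) := by
    intro b hb
    apply ha
    have hb0 : b ≠ 0 := by
      rintro rfl
      rw [zero_pow hp.ne_zero] at hb
      exact a.ne_zero hb.symm
    refine (mem_PW_iff p a).2 ⟨Units.mk0 b hb0, ?_⟩
    ext
    simpa using hb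
  have H : Irreducible (X ^ p - C (a : N)) := X_pow_sub_C_irreducible_of_prime hp hu
  have hζne : (primitiveRoots p N).Nonempty := ⟨ζ, (mem_primitiveRoots hp.pos).mpr hζ⟩
  have hmonic : (X ^ p - C (a : N)).Monic := monic_X_pow_sub_C _ hp.ne_zero
  have hroot : aeval α (X ^ p - C (a : N)) = 0 := by
    simp [hα]
  have hint : IsIntegral N α := ⟨_, hmonic, by simpa [aeval_def] using hroot⟩
  have hmin : minpoly N α = X ^ p - C (a : N) :=
    (minpoly.eq_of_irreducible_of_monic H hroot hmonic).symm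
  have hfd : FiniteDimensional N N⟮α⟯ := adjoin.finiteDimensional hint
  have hrank : Module.finrank N N⟮α⟯ = p := by
    rw [adjoin.finrank hint, hmin, natDegree_X_pow_sub_C]
  have hgen : (AdjoinSimple.gen N α) ^ (Module.finrank N N⟮α⟯) = algebraMap N N⟮α⟯ a := by
    rw [hrank]
    apply Subtype.ext
    simpa using hα
  have htop : N⟮AdjoinSimple.gen N α⟯ = ⊤ :=
    adjoin_eq_top_of_algebra _ _ (adjoin.powerBasis hint).adjoin_gen_eq_top
  have hsplit : IsSplittingField N N⟮α⟯ (X ^ p - C (a : N)) := by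
    have := isSplittingField_X_pow_sub_C_of_root_adjoin_eq_top (K := N) (L := N⟮α⟯)
      (by rw [hrank]; exact hζne) hgen htop
    rwa [hrank] at this
  refine ⟨N⟮α⟯, hfd, isGalois_of_isSplittingField_X_pow_sub_C hζne H _, hrank, ?_⟩
  intro g hg
  constructor
  · intro h
    exact h (AdjoinSimple.gen N α)
  · intro h x
    obtain ⟨x, hx⟩ := x
    change g x = x
    induction hx using adjoin_induction with
    | mem y hy =>
      rw [Set.mem_singleton_iff] at hy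
      rw [hy, h]
    | algebraMap y => exact hg y
    | add y z _ _ hy hz => rw [map_add, hy, hz]
    | inv y _ hy => rw [map_inv₀, hy]
    | mul y z _ _ hy hz => rw [map_mul, hy, hz]

variable {ι : ZMod p →+ Additive Qbarˣ} (K : KummerSetup Lall p multRep (cycRep p) ι)

/-- Put `W = Vof N ⊓ Dec 𝒜`.  Suppose `x ∉ B1`; then `kerOf W x ≠ W` (`mem_B1_iff` of `Coh/DictV.lean` /
`mem_B1_iff_of_le_G1` + `B1_cyc_eq_triv`, `mem_kerOf_iff`), take `σ ∈ W`, `x 1 σ = 1` (`exists_sigma`).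
`x ∈ Z1 Lall W cyc` (`Z1_cyc_eq_triv`), so `x - κ(a) ∈ B1` for some `a : Nˣ` (`exists_kum_local`) and `x 1 w = K.kum (emb a) 1 w`
on `W` (`eq_kum_one_of_sub_mem_B1`).  `a ∉ PW` (otherwise `κ(a) ∈ B1 Lall (Vof N)`, `kum_mem_B1_global_iff`, and `x 1 σ = 0`).
Let `α ^ p = a` (`IsAlgClosed.exists_pow_nat_eq`), `N'` from `exists_kummer_field`, `NumberField N'`
(`numberField_of_finiteDimensional'`).  For `g ∈ Vof N`: `g ∈ Vof N' ↔ g α = α ↔ K.kum (emb a) 1 g = 0` (`kum_one_eq_zero_iff`).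
So `σ ∉ Vof N'`, `¬ Split N' (plOf N 𝒜 h)` (`split_plOf_iff`) and `kerOf W x = Vof N' ⊓ Dec 𝒜` (`Vof_le_of_tower`).
`NL_ne_top` gives `b : Nˣ`, `b ∉ NL N N' p ζ (plOf N 𝒜 h)`.  By `H b` and `K.exists_norm_of_theta_mem_B2` (`K.theta = cupT (K.kum _) _`
by definition) there is `c` fixed by `kerOf W x` with `normOf multRep p σ c = emb b`; `β = toMul c ∈ kh N' 𝒜` (`mem_kh`) and
`∏ i ∈ range p, (σ ^ i) β = algebraMap N Qbar b`; `mem_norm_sup_LP_iff` gives `b ∈ NR ⊔ LP = NL`: contradiction. -/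
theorem localPairing_aux {ζ : N} (hζ : IsPrimitiveRoot ζ p) (hV1 : Vof N ≤ G1 p) {𝒜 : Place}
    (h : 𝒜.IsFin) {x : GQ → GQ → ZMod p} (hx : x ∈ Z1 Lall (Vof N ⊓ Dec 𝒜) (trivZ p GQ))
    (H : ∀ b : Nˣ, cupT (K.kum (emb b)) x ∈ B2 Lall (Vof N ⊓ Dec 𝒜) (cycRep p)) :
    x ∈ B1 Lall (Vof N ⊓ Dec 𝒜) (trivZ p GQ) := by
  have hW1 : Vof N ⊓ Dec 𝒜 ≤ G1 p := inf_le_left.trans hV1
  by_contra hxB
  have hxc : x ∈ Z1 Lall (Vof N ⊓ Dec 𝒜) (cycRep p) := by rw [Z1_cyc_eq_triv hW1]; exact hx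
  have hne : kerOf (Vof N ⊓ Dec 𝒜) x ≠ Vof N ⊓ Dec 𝒜 := by
    intro heq
    apply hxB
    rw [← B1_cyc_eq_triv hW1, mem_B1_iff_of_le_G1 hW1 hxc]
    intro w hw
    have hw' : w ∈ kerOf (Vof N ⊓ Dec 𝒜) x := by rw [heq]; exact hw
    exact ((mem_kerOf_iff hx).1 hw').2
  obtain ⟨σ, hσ, hσ1⟩ := exists_sigma hx hne
  obtain ⟨a, ha⟩ := exists_kum_local K hζ hV1 h hxc
  have hxa : ∀ w ∈ Vof N ⊓ Dec 𝒜, x 1 w = K.kum (emb a) 1 w := eq_kum_one_of_sub_mem_B1 K hW1 ha
  have haPW : a ∉ PW p Nˣ := by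
    intro haP
    have h1 := (kum_mem_B1_global_iff K a).2 haP
    have h2 := (mem_B1_iff_of_le_G1 hV1 (B1_le_Z1 h1)).1 h1 σ hσ.1
    rw [← hxa σ hσ, hσ1] at h2
    exact one_ne_zero h2
  obtain ⟨α, hα⟩ := IsAlgClosed.exists_pow_nat_eq (algebraMap N Qbar a) (Fact.out : p.Prime).pos
  obtain ⟨N', hfd, hgal, hdeg, hN'⟩ := exists_kummer_field hζ haPW hα
  have : NumberField N' := numberField_of_finiteDimensional' N'
  have hkey : ∀ g ∈ Vof N, (g ∈ Vof N' ↔ K.kum (emb a) 1 g = 0) := by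
    intro g hg
    rw [hN' g hg]
    exact (kum_one_eq_zero_iff K (hV1 hg) (b := Units.map (algebraMap N Qbar : N →* Qbar) a)
      (hg a) hα).symm
  have hσN' : σ ∉ Vof N' := by
    intro hcon
    have h2 := (hkey σ hσ.1).1 hcon
    rw [← hxa σ hσ, hσ1] at h2
    exact one_ne_zero h2
  have hns : ¬ Split N' (plOf N 𝒜 h) := fun hs => hσN' ((split_plOf_iff h).1 hs hσ)
  have hker : ∀ w, w ∈ Vof N' ⊓ Dec 𝒜 → w ∈ kerOf (Vof N ⊓ Dec 𝒜) x := by
    intro w hw
    have hwW : w ∈ Vof N ⊓ Dec 𝒜 := ⟨Vof_le_of_tower N' hw.1, hw.2⟩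
    rw [mem_kerOf_iff hx]
    exact ⟨hwW, by rw [hxa w hwW]; exact (hkey w hwW.1).1 hw.1⟩
  obtain ⟨b, hb⟩ : ∃ b : Nˣ, b ∉ NL N N' p ζ (plOf N 𝒜 h) := by
    by_contra hcon
    push Not at hcon
    exact NL_ne_top p ζ hζ hdeg _ hns (eq_top_iff.2 fun b _ => hcon b)
  obtain ⟨c, hc, hcN⟩ := K.exists_norm_of_theta_mem_B2 hx hσ hσ1 (b := emb b)
    (fun v hv => multRep_emb hv.1 b) (H b)
  apply hb
  rw [NL, NR, mem_norm_sup_LP_iff h hζ hdeg hσ hσN' b]
  refine ⟨((Additive.toMul c : Qbarˣ) : Qbar), mem_kh.2 fun g hg => ?_, ?_⟩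
  · exact (multRep_eq_iff g (Additive.toMul c)).1 (hc g (hker g hg))
  · have h1 := congrArg (fun z : Additive Qbarˣ => ((Additive.toMul z : Qbarˣ) : Qbar)) hcN
    simp only [normOf, coe_toMul_emb, toMul_sum, Units.coe_prod] at h1
    rw [← h1]
    rfl

include K in
/-- **The contract (L-pair).** -/
theorem localPairing : LocalPairingStatement p := by
  intro V hVo hV1 𝒜 h x hx H
  obtain ⟨F, hF, hFV⟩ := exists_field_of_isOpen hVo
  have hV : V = Vof F := by rw [Vof_intermediateField, hFV]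
  subst hV
  have : NumberField F := numberField_of_finiteDimensional F
  obtain ⟨ζ, hζ⟩ := exists_zeta (N := F) K hV1
  refine localPairing_aux K hζ hV1 h hx fun b => H _ ?_
  exact K.kum_mem_Z1 fun v hv => multRep_emb hv.1 b

end Fermat.Agent.PT.Koch

end
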