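/-
S55 block K, leaf `Sha1`: `Ш¹_S(N, μ_p) ≅ V_S / p`.
-/
import Fermat.Agent.PT.Koch.Sel
import Fermat.Agent.PT.Arith.ClCountB

set_option autoImplicit false

open NumberField IsDedekindDomain Fermat.Agent.CFT Fermat.Agent.PT.Arith ExtCitation

noncomputable section

namespace Fermat.Agent.PT.Koch

variable {N : Type*} [Field N] [NumberField N] [Algebra N Qbar]
variable {p : ℕ} [Fact p.Prime] {ι : ZMod p →+ Additive Qbarˣ}
  (K : KummerSetup Lall p multRep (cycRep p) ι) {S : Finset Nat.Primes}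

namespace Sha1

theorem Z1_LS_le_Lall {V : Subgroup GQ} : Z1 (LS S) V (cycRep p) ≤ Z1 Lall V (cycRep p) := by
  rintro f ⟨⟨he, U, hU, hs⟩, hd⟩
  exact ⟨⟨he, U, LS_le_Lall S hU, hs⟩, hd⟩

theorem B1_LS_le_Lall {V : Subgroup GQ} : B1 (LS S) V (cycRep p) ≤ B1 Lall V (cycRep p) := by
  rintro _ ⟨e, ⟨he, U, hU, hs⟩, rfl⟩
  exact ⟨e, ⟨he, U, LS_le_Lall S hU, hs⟩, rfl⟩

theorem mem_VS_iff (ζ : N) (T : Set (Pl N)) (x : Nˣ) :
    x ∈ VS p ζ T ↔ x ∈ SigS N p T ∧ ∀ v ∈ T, x ∈ LP p ζ v := by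
  simp [VS, Subgroup.mem_inf, Subgroup.mem_iInf]

theorem PW_le_VS (ζ : N) (T : Set (Pl N)) : PW p Nˣ ≤ VS p ζ T := by
  intro x hx
  obtain ⟨y, rfl⟩ := (mem_PW_iff p x).1 hx
  refine (mem_VS_iff ζ T _).2 ⟨?_, fun v _ => pow_mem_LP p ζ v y⟩
  rw [mem_SigS_iff]
  intro v _
  rw [Units.val_pow_eq_pow_val, ord_pow]
  exact dvd_mul_right _ _

theorem VS_le_SigS (ζ : N) (T : Set (Pl N)) : VS p ζ T ≤ SigS N p T :=
  fun _ hx => ((mem_VS_iff ζ T _).1 hx).1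

end Sha1

open Sha1

/-- `x ∈ V_S ⇒ κ(x) ∈ ShaZ1` (`kum_mem_Z1_LS`; at `𝒜` over `S`: `kum_mem_B1_local_iff`, `plOf_mem_SN_iff`). -/
theorem kum_mem_ShaZ1 {ζ : N} (hζ : IsPrimitiveRoot ζ p) (hpS : pPrime p ∈ S)
    (hVS : (LS S).IsOpen (Vof N)) (hV1 : Vof N ≤ G1 p) {x : Nˣ} (hx : x ∈ VS p ζ (SN N S)) :
    K.kum (emb x) ∈ ShaZ1 S (Vof N) (cycRep p) := by
  obtain ⟨hx1, hx2⟩ := (mem_VS_iff ζ _ x).1 hx
  refine Submodule.mem_inf.2 ⟨kum_mem_Z1_LS K hζ hpS hVS hV1 hx1, ?_⟩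
  simp only [Submodule.mem_iInf]
  intro 𝒜 h𝒜
  have hfin := isFin_of_overS h𝒜
  exact (kum_mem_B1_local_iff K hζ hfin x).2 (hx2 _ ((plOf_mem_SN_iff hfin).2 h𝒜))

/-- every element of `ShaZ1` is cohomologous to `κ(x)`, `x ∈ V_S`
(`exists_kum_global`, `mem_SigS_of_kum`; for `v ∈ SN N S` use `𝒜 = plc v` (over `S`), `B1_le_of_le`,
`kum_mem_B1_local_iff`, `plOf_plc`; finally `mem_B1_LS_iff`). -/
theorem exists_VS_of_mem_ShaZ1 {ζ : N} (hζ : IsPrimitiveRoot ζ p) (hpS : pPrime p ∈ S)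
    (hVS : (LS S).IsOpen (Vof N)) (hV1 : Vof N ≤ G1 p) {f : GQ → GQ → ZMod p}
    (hf : f ∈ ShaZ1 S (Vof N) (cycRep p)) :
    ∃ x ∈ VS p ζ (SN N S), f - K.kum (emb x) ∈ B1 (LS S) (Vof N) (cycRep p) := by
  obtain ⟨hf1, hf2⟩ := Submodule.mem_inf.1 hf
  simp only [Submodule.mem_iInf] at hf2
  obtain ⟨x, hx⟩ := exists_kum_global K (Z1_LS_le_Lall hf1)
  have hxS : x ∈ SigS N p (SN N S) := mem_SigS_of_kum K hζ hpS hV1 hf1 hx
  have hxV : x ∈ VS p ζ (SN N S) := by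
    refine (mem_VS_iff ζ _ x).2 ⟨hxS, fun v hv => ?_⟩
    have hover : (plc v).OverS S := by
      have := (plOf_mem_SN_iff (N := N) (S := S) (plc_isFin v)).1 (by rw [plOf_plc]; exact hv)
      exact this
    have h1 := hf2 (plc v) hover
    have h2 : f - K.kum (emb x) ∈ B1 Lall (Vof N ⊓ Dec (plc v)) (cycRep p) :=
      B1_le_of_le inf_le_left hx
    have h3 : K.kum (emb x) ∈ B1 Lall (Vof N ⊓ Dec (plc v)) (cycRep p) := by
      have := sub_mem h1 h2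
      rwa [sub_sub_cancel] at this
    have h4 := (kum_mem_B1_local_iff K hζ (plc_isFin v) x).1 h3
    rwa [plOf_plc] at h4
  refine ⟨x, hxV, ?_⟩
  exact (mem_B1_LS_iff hV1 (sub_mem hf1 (kum_mem_Z1_LS K hζ hpS hVS hV1 hxS))).2 hx

include K in
/-- **`Ш¹_S(N, μ_p) ≅ V_S / p`.**
`Φ : ↥(VS p ζ (SN N S)) →* Multiplicative (Sha1 ..)`, `x ↦ [K.kum (emb x)]`: a homomorphism (`K.kum_add`, `emb_mul`,
`mem_B1_LS_iff`), surjective (`exists_VS_of_mem_ShaZ1`), with kernel `PW` (`kum_mem_B1_global_iff`).  So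
`Nat.card Sha1 = (PW p Nˣ).relIndex (VS ..)`.  This is `≠ 0` because `PW ≤ VS ≤ SigS` and
`(PW p Nˣ).relIndex (SigS ..) ≠ 0` (`relIndex_PW_SigS`, `finite_ClModP`, `Subgroup.relIndex_mul_relIndex`), whence
finiteness (`Nat.finite_of_card_ne_zero`). -/
theorem card_Sha1 (hp2 : p ≠ 2) {ζ : N} (hζ : IsPrimitiveRoot ζ p) (hpS : pPrime p ∈ S)
    (hVS : (LS S).IsOpen (Vof N)) (hV1 : Vof N ≤ G1 p) :
    Finite (Sha1 S (Vof N) (cycRep p)) ∧
      Nat.card (Sha1 S (Vof N) (cycRep p)) = (PW p Nˣ).relIndex (VS p ζ (SN N S)) := by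
  have hpp : p.Prime := Fact.out
  set Q := (B1 (LS S) (Vof N) (cycRep p)).submoduleOf (ShaZ1 S (Vof N) (cycRep p)) with hQ
  have hmem : ∀ x : ↥(VS p ζ (SN N S)), K.kum (emb (x : Nˣ)) ∈ ShaZ1 S (Vof N) (cycRep p) :=
    fun x => kum_mem_ShaZ1 K hζ hpS hVS hV1 x.2
  have hZ : ∀ x : ↥(VS p ζ (SN N S)), K.kum (emb (x : Nˣ)) ∈ Z1 (LS S) (Vof N) (cycRep p) :=
    fun x => (Submodule.mem_inf.1 (hmem x)).1
  have hfix : ∀ x : Nˣ, ∀ v ∈ Vof N, multRep v (emb x) = emb x := fun x v hv => multRep_emb hv x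
  -- the homomorphism
  let φ : ↥(VS p ζ (SN N S)) → Sha1 S (Vof N) (cycRep p) :=
    fun x => Submodule.Quotient.mk ⟨K.kum (emb (x : Nˣ)), hmem x⟩
  have hφeq : ∀ (a b : ↥(ShaZ1 S (Vof N) (cycRep p))),
      (Submodule.Quotient.mk a : Sha1 S (Vof N) (cycRep p)) = Submodule.Quotient.mk b ↔
        (a : GQ → GQ → ZMod p) - b ∈ B1 (LS S) (Vof N) (cycRep p) := by
    intro a b
    rw [Submodule.Quotient.eq]
    rfl
  have hφmul : ∀ x y, φ (x * y) = φ x + φ y := by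
    intro x y
    show (Submodule.Quotient.mk _ : Sha1 S (Vof N) (cycRep p)) =
      Submodule.Quotient.mk _ + Submodule.Quotient.mk _
    rw [← Submodule.Quotient.mk_add, hφeq]
    show K.kum (emb ((x * y : ↥(VS p ζ (SN N S))) : Nˣ)) -
      (K.kum (emb (x : Nˣ)) + K.kum (emb (y : Nˣ))) ∈ _
    rw [mem_B1_LS_iff hV1 (sub_mem (hZ _) (add_mem (hZ x) (hZ y)))]
    rw [Subgroup.coe_mul, emb_mul]
    exact K.kum_add (hfix _) (hfix _)
  let Φ : ↥(VS p ζ (SN N S)) →* Multiplicative (Sha1 S (Vof N) (cycRep p)) :=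
    MonoidHom.mk' (fun x => Multiplicative.ofAdd (φ x)) (fun x y => by
      rw [hφmul, ofAdd_add])
  have hsurj : Function.Surjective Φ := by
    intro c
    obtain ⟨⟨f, hf⟩, hc⟩ := Submodule.Quotient.mk_surjective _ (Multiplicative.toAdd c)
    obtain ⟨x, hx, hfx⟩ := exists_VS_of_mem_ShaZ1 K hζ hpS hVS hV1 hf
    refine ⟨⟨x, hx⟩, ?_⟩
    show Multiplicative.ofAdd (φ ⟨x, hx⟩) = c
    rw [← ofAdd_toAdd c, ← hc]
    congr 1
    rw [eq_comm, hφeq]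
    exact hfx
  have hker : Φ.ker = (PW p Nˣ).subgroupOf (VS p ζ (SN N S)) := by
    ext x
    rw [MonoidHom.mem_ker, Subgroup.mem_subgroupOf, ← kum_mem_B1_global_iff K,
      ← mem_B1_LS_iff hV1 (hZ x)]
    show Multiplicative.ofAdd (φ x) = 1 ↔ _
    rw [ofAdd_eq_one]
    show (Submodule.Quotient.mk _ : Sha1 S (Vof N) (cycRep p)) = 0 ↔ _
    rw [Submodule.Quotient.mk_eq_zero]
    rfl
  have hcard : Nat.card (Sha1 S (Vof N) (cycRep p)) = (PW p Nˣ).relIndex (VS p ζ (SN N S)) := by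
    have e := QuotientGroup.quotientKerEquivOfSurjective Φ hsurj
    have h1 : Nat.card (Multiplicative (Sha1 S (Vof N) (cycRep p))) = Φ.ker.index := by
      rw [Subgroup.index, Nat.card_congr e.toEquiv]
    rw [hker] at h1
    exact h1
  have hne : (PW p Nˣ).relIndex (VS p ζ (SN N S)) ≠ 0 := by
    have h1 := Subgroup.relIndex_mul_relIndex (PW p Nˣ) (VS p ζ (SN N S)) (SigS N p (SN N S))
      (PW_le_VS ζ _) (VS_le_SigS ζ _)
    have h2 := relIndex_PW_SigS p hp2 ζ hζ (SN N S) finite_SN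
    haveI : Finite (SN N S) := finite_SN.to_subtype
    have h3 : Nat.card (ClModP N p (SN N S)) ≠ 0 := Nat.card_pos.ne'
    intro h0
    rw [h0, zero_mul, h2] at h1
    exact (mul_ne_zero (pow_ne_zero _ hpp.ne_zero) h3) h1.symm
  refine ⟨?_, hcard⟩
  apply Nat.finite_of_card_ne_zero
  rw [hcard]
  exact hne

end Fermat.Agent.PT.Koch

end
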