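/-
S55 block K: the contract `FCStatement p` from the contracts of the other blocks.
-/
import Fermat.Agent.PT.Koch.FC1
import Fermat.Agent.PT.Koch.FC2
import Fermat.Agent.PT.Koch.Sha1
import Fermat.Agent.PT.Hens.Val
import Fermat.Agent.PT.Koch.LocalPairing

set_option autoImplicit false

open NumberField IsDedekindDomain Fermat.Agent.CFT Fermat.Agent.PT.Arith ExtCitation

noncomputable section

namespace Fermat.Agent.PT.Koch

/-- **(FC)**: `|Ш²_S(k,μ_p)| ≤ |Ш¹_S(k,μ_p)| < ∞` for `k ∋ μ_p` unramified outside `S ∋ p`, `p` odd. -/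
theorem FC_of {p : ℕ} [Fact p.Prime] (hp2 : p ≠ 2) {ι : ZMod p →+ Additive Qbarˣ}
    (K : KummerSetup Lall p multRep (cycRep p) ι) (hLC : LocalCardStatement p)
    (hNr : LocalNrStatement p) (hHP : HPStatement p) (hLP : LocalPairingStatement p) :
    FCStatement p := by
  intro S hpS V hVS hV1 J _ 𝒜 hsys lam hlam hrec
  obtain ⟨F, hF, hFV⟩ := exists_field_of_isOpen (isOpen_Lall_of_isOpen_LS hVS)
  have hV : V = Vof F := by rw [Vof_intermediateField, hFV]
  subst hV
  have : NumberField F := numberField_of_finiteDimensional F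
  obtain ⟨ζ, hζ⟩ := exists_zeta (N := F) K hV1
  obtain ⟨h1, h2⟩ := card_Sha1 K hp2 hζ hpS hVS hV1
  obtain ⟨h3, h4⟩ := card_Sha2_le K hHP hNr hpS hVS hV1
  exact ⟨h1, h3, h4.trans
    ((card_ClModP_le_VS K hp2 hζ hpS hVS hV1 hLC hLP 𝒜 hsys lam hlam hrec).trans h2.ge)⟩

/-- **(FC)**, with the local pairing contract discharged (`Koch/LocalPairing.lean`). -/
theorem FC {p : ℕ} [Fact p.Prime] (hp2 : p ≠ 2) {ι : ZMod p →+ Additive Qbarˣ}
    (K : KummerSetup Lall p multRep (cycRep p) ι) (hLC : LocalCardStatement p)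
    (hNr : LocalNrStatement p) (hHP : HPStatement p) : FCStatement p :=
  FC_of hp2 K hLC hNr hHP (localPairing K)

end Fermat.Agent.PT.Koch

end
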